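import Fermat.Agent.MW.Canonical.Families
import Mathlib.LinearAlgebra.Lagrange
import Mathlib.RingTheory.AlgebraicIndependent.AlgebraicClosure
import Mathlib.FieldTheory.AlgebraicClosure
import Mathlib.RingTheory.Flat.Domain
import Mathlib.LinearAlgebra.Matrix.Charpoly.Basic

/-!
# Generic divisors are good

The matrix of values of `g` independent functions at points with algebraically independent
projections is nonsingular. The trace-dual relations at the fibres of such points then show that
no other divisor of degree at most `g` lies in their class.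
-/

set_option autoImplicit false

noncomputable section

open scoped TensorProduct
open Polynomial Module

namespace Fermat.Agent.MW

variable {K A : Type} [Field K] [CommRing A] [Algebra K A] (D : CurveBasis K A)

namespace CurveBasis

/-- The matrix of multiplication by a function on the basis over `K[u]`. -/
def mulMat (f : A) : Matrix (Fin D.projDeg) (Fin D.projDeg) K[X] :=
  Matrix.of fun r s => D.coordP (f * D.eps r) s

theorem eps_zero : D.eps ⟨0, D.projDeg_pos⟩ = 1 := by
  rw [eps, Nat.le_zero.mp (D.apery_le D.zero_notMem (r := ⟨0, D.projDeg_pos⟩) (Nat.zero_mod _)),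
    D.e_zero]

theorem det_mulMat_ne_zero [IsDomain A] {f : A} (hf : f ≠ 0) : (D.mulMat f).det ≠ 0 := by
  intro h
  obtain ⟨v, hv, hvM⟩ := Matrix.exists_vecMul_eq_zero_iff.mpr h
  have h0 : D.coordP (f * D.polyComb v) = 0 := by
    funext s
    rw [polyComb_apply, Finset.mul_sum, map_sum, Finset.sum_apply]
    refine Eq.trans (Finset.sum_congr rfl fun r _ => ?_) (congrFun hvM s)
    rw [mul_left_comm, D.coordP_aeval_mul]
    rfl
  rw [LinearEquiv.map_eq_zero_iff, mul_eq_zero] at h0
  exact hv (D.polyComb_injective ((h0.resolve_left hf).trans (map_zero _).symm))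

theorem mulMat_mulVec (φ : A →ₐ[K] K) (f : A) :
    Matrix.mulVec ((D.mulMat f).map fun p => p.eval (φ D.uu)) (fun s => φ (D.eps s))
      = fun r => φ f * φ (D.eps r) := by
  funext r
  show _ = φ f * φ (D.eps r)
  rw [← map_mul φ, ← D.polyComb_coordP (f * D.eps r), polyComb_apply, map_sum]
  simp only [Matrix.mulVec, dotProduct]
  refine Finset.sum_congr rfl fun s _ => ?_
  rw [map_mul, ← aeval_algHom_apply, coe_aeval_eq_eval]
  rfl

theorem eps_values_ne_zero (φ : A →ₐ[K] K) : (fun s => φ (D.eps s)) ≠ 0 := fun h => by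
  have := congrFun h ⟨0, D.projDeg_pos⟩
  simp only [D.eps_zero, map_one, Pi.zero_apply] at this
  exact one_ne_zero this

theorem det_scalar_sub_mulMat (φ : A →ₐ[K] K) (f : A) :
    (Matrix.scalar (Fin D.projDeg) (φ f)
      - (D.mulMat f).map fun p => p.eval (φ D.uu)).det = 0 := by
  refine Matrix.exists_mulVec_eq_zero_iff.mp ⟨_, D.eps_values_ne_zero φ, ?_⟩
  rw [Matrix.sub_mulVec, D.mulMat_mulVec, sub_eq_zero]
  funext r
  rw [Matrix.scalar_apply, Matrix.mulVec_diagonal]

theorem det_mulMat_eval_eq_zero {φ : A →ₐ[K] K} {f : A} (h : φ f = 0) :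
    (D.mulMat f).det.eval (φ D.uu) = 0 := by
  rw [← coe_evalRingHom, RingHom.map_det]
  refine Matrix.exists_mulVec_eq_zero_iff.mp ⟨_, D.eps_values_ne_zero φ, ?_⟩
  refine (D.mulMat_mulVec φ f).trans ?_
  funext r
  rw [h, zero_mul]
  rfl

theorem mulMat_baseChange (L : Type) [Field L] [Algebra K L] (f : A) (r s : Fin D.projDeg) :
    (D.baseChange L).mulMat ((1 : L) ⊗ₜ f) r s = (D.mulMat f r s).map (algebraMap K L) := by
  show (D.baseChange L).coordP ((1 : L) ⊗ₜ f * (D.baseChange L).e (D.apery r)) s = _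
  rw [D.baseChange_e L, Algebra.TensorProduct.tmul_mul_tmul, mul_one, D.coordP_baseChange]
  rfl

section

variable (L : Type) [Field L] [Algebra K L]

/-- A nonzero function with coefficients in `k` has no zero at a point whose projection is
transcendental over `k`. -/
theorem apply_ne_zero_of_transcendental [IsDomain (L ⊗[K] A)] (k : Type) [Field k]
    [Algebra K k] [Algebra k L] [IsScalarTower K k L] {ι : Type} [Fintype ι] (a : ι → k)
    (W : ι → A) (hw : (∑ i, algebraMap k L (a i) • ((1 : L) ⊗ₜ[K] W i)) ≠ 0)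
    (φ : L ⊗[K] A →ₐ[L] L) (hc : Transcendental k (φ ((1 : L) ⊗ₜ D.uu))) :
    φ (∑ i, algebraMap k L (a i) • ((1 : L) ⊗ₜ[K] W i)) ≠ 0 := by
  intro h0
  set w := ∑ i, algebraMap k L (a i) • ((1 : L) ⊗ₜ[K] W i) with hwdef
  let N : Matrix (Fin D.projDeg) (Fin D.projDeg) k[X] :=
    Matrix.of fun r s => ∑ i, C (a i) * (D.mulMat (W i) r s).map (algebraMap K k)
  have hN : (D.baseChange L).mulMat w = (mapRingHom (algebraMap k L)).mapMatrix N := by
    ext r s : 1
    show (D.baseChange L).coordP (w * (D.baseChange L).eps r) s = _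
    rw [hwdef, Finset.sum_mul, map_sum, Finset.sum_apply, RingHom.mapMatrix_apply, Matrix.map_apply]
    show _ = mapRingHom (algebraMap k L)
      (∑ i, C (a i) * (D.mulMat (W i) r s).map (algebraMap K k))
    rw [map_sum]
    refine Finset.sum_congr rfl fun i _ => ?_
    rw [smul_mul_assoc, map_smul, Pi.smul_apply, coe_mapRingHom, Polynomial.map_mul, Polynomial.map_C,
      Polynomial.map_map, ← IsScalarTower.algebraMap_eq, ← smul_eq_C_mul]
    exact congrArg _ (D.mulMat_baseChange L (W i) r s)
  have h1 : ((D.baseChange L).mulMat w).det.eval (φ (D.baseChange L).uu) = 0 :=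
    (D.baseChange L).det_mulMat_eval_eq_zero h0
  have h2 : ((D.baseChange L).mulMat w).det ≠ 0 := (D.baseChange L).det_mulMat_ne_zero hw
  rw [hN] at h1 h2
  erw [← RingHom.map_det] at h1 h2
  rw [D.uu_baseChange L, coe_mapRingHom, eval_map_algebraMap] at h1
  exact h2 (by rw [transcendental_iff.mp hc _ h1, map_zero])

/-- Values of functions are algebraic over the value of the projection. -/
theorem isAlgebraic_value (F : IntermediateField K L) (φ : L ⊗[K] A →ₐ[L] L)
    (hc : φ ((1 : L) ⊗ₜ D.uu) ∈ F) (f : A) : IsAlgebraic F (φ ((1 : L) ⊗ₜ f)) := by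
  let N : Matrix (Fin D.projDeg) (Fin D.projDeg) F :=
    (D.mulMat f).map fun p => aeval (⟨_, hc⟩ : F) p
  refine ⟨N.charpoly, (Matrix.charpoly_monic N).ne_zero, ?_⟩
  rw [aeval_def, ← eval_map, ← Matrix.charpoly_map, Matrix.eval_charpoly]
  have hN : (N.map (algebraMap F L)) =
      ((D.baseChange L).mulMat ((1 : L) ⊗ₜ f)).map
        fun p => p.eval (φ (D.baseChange L).uu) := by
    refine Matrix.ext fun r s => ?_
    refine (show _ = ((D.baseChange L).mulMat ((1 : L) ⊗ₜ f) r s).eval
      (φ (D.baseChange L).uu) from ?_)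
    rw [D.uu_baseChange L, D.mulMat_baseChange L, eval_map_algebraMap]
    exact (aeval_algebraMap_apply L (⟨_, hc⟩ : F) _).symm
  rw [hN]
  exact (D.baseChange L).det_scalar_sub_mulMat φ _

/-- Values of independent functions at generic points form a nonsingular matrix. -/
theorem det_ne_zero_of_algebraicIndependent [IsDomain (L ⊗[K] A)] :
    ∀ (n : ℕ) (W : Fin n → A), LinearIndependent K W → ∀ φ : Fin n → (L ⊗[K] A →ₐ[L] L),
      AlgebraicIndependent K (fun j => φ j ((1 : L) ⊗ₜ D.uu)) →
      (Matrix.of fun j i => φ j ((1 : L) ⊗ₜ W i)).det ≠ 0 := by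
  intro n
  induction n with
  | zero => intro W _ φ _; simp
  | succ n ih =>
    intro W hW φ hc
    set l := Fin.last n
    set F : IntermediateField K L :=
      IntermediateField.adjoin K ((fun j => φ j ((1 : L) ⊗ₜ D.uu)) '' {j | j ≠ l}) with hF
    set k := algebraicClosure F L with hk
    set M : Matrix (Fin (n + 1)) (Fin (n + 1)) L := Matrix.of fun j i => φ j ((1 : L) ⊗ₜ W i)
      with hM
    have : IsScalarTower K k L := IsScalarTower.of_algebraMap_eq fun _ => rfl
    have hmem : ∀ j ≠ l, ∀ i, M j i ∈ k := fun j hj i =>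
      mem_algebraicClosure_iff.mpr
        (D.isAlgebraic_value L F (φ j) (IntermediateField.subset_adjoin K _ ⟨j, hj, rfl⟩) (W i))
    have hcof : ∀ i : Fin (n + 1),
        (-1) ^ ((l : ℕ) + (i : ℕ)) * (M.submatrix l.succAbove i.succAbove).det ∈ k := fun i => by
      refine mul_mem (pow_mem (neg_mem (one_mem _)) _) ?_
      rw [Matrix.det_apply']
      exact sum_mem fun σ _ => mul_mem (intCast_mem _ _)
        (prod_mem fun x _ => hmem _ (Fin.succAbove_ne _ _) _)
    set a : Fin (n + 1) → k := fun i => ⟨_, hcof i⟩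
    have hdet : M.det = φ l (∑ i, algebraMap k L (a i) • ((1 : L) ⊗ₜ[K] W i)) := by
      rw [Matrix.det_succ_row M l, map_sum]
      refine Finset.sum_congr rfl fun i _ => ?_
      rw [map_smul, smul_eq_mul]
      show _ = (-1) ^ ((l : ℕ) + (i : ℕ)) * (M.submatrix l.succAbove i.succAbove).det * M l i
      ring
    have hal : algebraMap k L (a l) ≠ 0 := by
      show (-1 : L) ^ ((l : ℕ) + (l : ℕ)) * (M.submatrix l.succAbove l.succAbove).det ≠ 0
      refine mul_ne_zero (pow_ne_zero _ (neg_ne_zero.mpr one_ne_zero)) ?_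
      exact ih (W ∘ l.succAbove) (hW.comp _ Fin.succAbove_right_injective) (φ ∘ l.succAbove)
        (hc.comp _ Fin.succAbove_right_injective)
    rw [hdet]
    have hWL : LinearIndependent L fun i => (1 : L) ⊗ₜ[K] W i :=
      Module.Flat.linearIndependent_one_tmul (R := K) (S := L) (M := A) hW
    refine D.apply_ne_zero_of_transcendental L k a W (fun h => hal ?_) (φ l) ?_
    · exact Fintype.linearIndependent_iff.mp hWL (fun i => algebraMap k L (a i)) h l
    · intro halg
      have h1 : IsAlgebraic F (φ l ((1 : L) ⊗ₜ D.uu)) := halg.restrictScalars F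
      exact hc.transcendental_adjoin (s := {j | j ≠ l}) (i := l) (by simp)
        (IntermediateField.isAlgebraic_adjoin_iff.mp h1)

end

variable [IsAlgClosed K] [IsDedekindDomain A]

omit [IsAlgClosed K] in
theorem le_zerosFin_of_le_zeros {n : ℕ} {t : A} {Qs : Multiset (Pt K A)}
    (hQ : none ∉ Qs) (h : Qs ≤ D.zeros n t) : Qs ≤ (zerosFin (K := K) t).map some := by
  classical
  rw [le_iff_finPart] at h ⊢
  rw [D.finPart_zeros] at h
  rw [finPart_map_some, Multiset.count_eq_zero_of_notMem hQ]
  exact ⟨h.1, Nat.zero_le _⟩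

/-- The decomposition of the fibre through a point. -/
theorem exists_fibre (φ : A →ₐ[K] K) : ∃ Qs : Multiset (Pt K A),
    D.zeros D.projDeg (D.uu - algebraMap K A (φ D.uu)) = some φ ::ₘ Qs ∧ none ∉ Qs ∧
      Multiset.card Qs + 1 = D.projDeg ∧ ∀ ψ : A →ₐ[K] K, some ψ ∈ Qs → ψ D.uu = φ D.uu := by
  have h := (D.evSec_eq_zero_iff (D.proj_sub_ne_zero (φ D.uu))
    (D.proj_sub_mem _) (some φ)).mp (by
      show φ (D.uu - algebraMap K A (φ D.uu)) = 0
      simp)
  obtain ⟨Qs, hQs⟩ := Multiset.exists_cons_of_mem h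
  refine ⟨Qs, hQs, fun hn => ?_, ?_, fun ψ hψ => ?_⟩
  · have hn' : none ∈ D.zeros D.projDeg (D.uu - algebraMap K A (φ D.uu)) :=
      hQs ▸ Multiset.mem_cons_of_mem hn
    rw [D.zeros_sub_algebraMap_uu] at hn'
    simp at hn'
  · rw [← Multiset.card_cons (some φ), ← hQs,
      D.card_zeros (D.proj_sub_ne_zero _) (D.proj_sub_mem _)]
  · have h1 : D.evSec D.projDeg (some ψ) (D.uu - algebraMap K A (φ D.uu)) = 0 :=
      (D.evSec_eq_zero_iff (D.proj_sub_ne_zero _) (D.proj_sub_mem _) _).mpr
        (hQs ▸ Multiset.mem_cons_of_mem hψ)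
    change ψ (D.uu - algebraMap K A (φ D.uu)) = 0 at h1
    simpa [sub_eq_zero] using h1

variable (L : Type) [Field L] [Algebra K L] [IsAlgClosed L] [IsDedekindDomain (L ⊗[K] A)]

omit [IsAlgClosed K] [IsDedekindDomain A] in
/-- Evaluation of the dual family against a function through the rest of a fibre. -/
theorem eval_dualW_modProj (φ : L ⊗[K] A →ₐ[L] L) (Qs : Multiset (Pt L (L ⊗[K] A)))
    (f : L ⊗[K] A)
    (hfib : (D.baseChange L).zeros D.projDeg
        (1 ⊗ₜ D.uu - algebraMap L _ (φ (1 ⊗ₜ D.uu))) = some φ ::ₘ Qs)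
    (hf : Qs ≤ (zerosFin f).map some) (i : Fin D.projDeg) :
    φ (1 ⊗ₜ D.dualW i) * φ f
      = aeval (φ (1 ⊗ₜ D.uu)) D.discP * (D.baseChange L).modProj f (φ (1 ⊗ₜ D.uu)) i := by
  refine D.eval_dualW L φ Qs f
    (fun j : Fin D.projDeg => (D.baseChange L).modProj f (φ (1 ⊗ₜ D.uu)) j) hfib (Or.inr hf) ?_ i
  have h := (D.baseChange L).sub_modProj_mem f (φ (1 ⊗ₜ D.uu))
  rw [D.uu_baseChange L] at h
  simp only [eps, D.baseChange_e L] at h
  exact h

variable [CharZero K]

omit [CharZero K] [IsAlgClosed K] [IsDedekindDomain A] in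
/-- A point over a transcendental projection is not a ramification point. -/
theorem notMem_fibre_rest (φ : L ⊗[K] A →ₐ[L] L) (Qs : Multiset (Pt L (L ⊗[K] A)))
    (hfib : (D.baseChange L).zeros D.projDeg
        (1 ⊗ₜ D.uu - algebraMap L _ (φ (1 ⊗ₜ D.uu))) = some φ ::ₘ Qs)
    (hnone : none ∉ Qs) (hΔ : aeval (φ (1 ⊗ₜ D.uu)) D.discP ≠ 0) : some φ ∉ Qs := by
  classical
  intro hmem
  obtain ⟨t, htn, ht0, E', hz, hav⟩ := (D.baseChange L).exists_section_avoid Qs
    (n := Multiset.card Qs + 2 * (D.baseChange L).genus) le_rfl {some φ}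
  have hle : Qs ≤ (D.baseChange L).zeros (Multiset.card Qs + 2 * (D.baseChange L).genus) t :=
    hz ▸ Multiset.le_add_right _ _
  have hfin := (D.baseChange L).le_zerosFin_of_le_zeros hnone hle
  have hφt : φ t = 0 :=
    ((D.baseChange L).evSec_eq_zero_iff ht0 htn (some φ)).mpr (Multiset.mem_of_le hle hmem)
  set s : L ⊗[K] A := 1 ⊗ₜ D.uu - algebraMap L _ (φ (1 ⊗ₜ D.uu)) with hsdef
  have htI : t ∈ Ideal.span {s} := by
    have h := (D.baseChange L).sub_modProj_mem t (φ (1 ⊗ₜ D.uu))
    rw [D.uu_baseChange L] at h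
    refine (Submodule.sub_mem_iff_left _ ?_).mp h
    refine Submodule.sum_mem _ fun i _ => ?_
    have := D.eval_dualW_modProj L φ Qs t hfib hfin i
    rw [hφt, mul_zero] at this
    rw [(mul_eq_zero.mp this.symm).resolve_left hΔ, zero_smul]
    exact zero_mem _
  have hs0 : s ≠ 0 := by
    have := (D.baseChange L).proj_sub_ne_zero (φ (1 ⊗ₜ D.uu))
    rwa [D.baseChange_e L] at this
  have h1 : zerosFin (K := L) s ≤ zerosFin t := by
    rw [← (D.baseChange L).mem_divIdeal_iff ht0, (D.baseChange L).divIdeal_zerosFin hs0]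
    exact htI
  have h2 := Multiset.count_le_of_le φ h1
  rw [← (D.baseChange L).finPart_zeros D.projDeg s, hfib,
    ← (D.baseChange L).finPart_zeros (Multiset.card Qs + 2 * (D.baseChange L).genus) t, hz] at h2
  have hE' : φ ∉ finPart E' := fun h => hav _ (mem_finPart.mp h) (Finset.mem_singleton_self _)
  simp only [finPart, Multiset.filterMap_add, Multiset.count_add] at h2 hE'
  rw [Multiset.count_eq_zero_of_notMem hE', add_zero,
    Multiset.filterMap_cons_some _ _ _ (show id (some φ) = some φ from rfl),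
    Multiset.count_cons_self] at h2
  omega

omit [IsAlgClosed K] [IsDedekindDomain A] [IsAlgClosed L] [IsDedekindDomain (L ⊗[K] A)]
    [CharZero K] in
/-- For a function of pole order at most `g · projDeg`, the coordinate at `eps r` times `X ^ p`,
`p < classGaps r`, has degree less than `g - 1`. -/
theorem coeff_pow_mul_coordP_eq_zero {f : L ⊗[K] A}
    (hfmem : f ∈ (D.baseChange L).lev (D.genus * D.projDeg)) {r : Fin D.projDeg} {p : ℕ}
    (hp : p < D.classGaps r) {m : ℕ} (hm : D.genus - 1 ≤ m) :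
    ((X : L[X]) ^ p * (D.baseChange L).coordP f r).coeff m = 0 := by
  rw [coeff_X_pow_mul']
  split_ifs with hpm
  · refine (D.baseChange L).coordP_bounded hfmem r (m - p) ?_
    show _ < D.projDeg * (m - p) + D.apery r
    have hr : 0 < (r : ℕ) := by
      by_contra hr
      have hr' : r = ⟨0, D.projDeg_pos⟩ := Fin.ext (by simpa using hr)
      have hz : D.apery r = 0 :=
        Nat.le_zero.mp (D.apery_le D.zero_notMem (by rw [Nat.zero_mod, hr']))
      have hcg : D.classGaps r = 0 := by
        unfold CurveBasis.classGaps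
        rw [hz, Nat.zero_div]
      omega
    have h1 := D.apery_eq r
    have h2 : D.projDeg * D.genus ≤ D.projDeg * (m - p + D.classGaps r) :=
      Nat.mul_le_mul_left _ (by omega)
    rw [Nat.mul_add] at h2
    rw [mul_comm D.genus]
    omega
  · rfl

omit [IsAlgClosed K] [IsDedekindDomain A] in
/-- A function of pole order at most `g · projDeg` through the rests of the fibres of `g` points
with algebraically independent projections vanishes at these points: its values are the
coefficients of a relation between the rows of a nonsingular matrix, by Lagrange interpolation. -/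
theorem apply_eq_zero_of_fibre_rests_le (φ : Fin D.genus → (L ⊗[K] A →ₐ[L] L))
    (h : AlgebraicIndependent K fun j => φ j ((1 : L) ⊗ₜ D.e D.projDeg))
    (Qs : Fin D.genus → Multiset (Pt L (L ⊗[K] A)))
    (hQs : ∀ j, (D.baseChange L).zeros D.projDeg
      (1 ⊗ₜ D.uu - algebraMap L _ (φ j (1 ⊗ₜ D.uu))) = some (φ j) ::ₘ Qs j)
    {f : L ⊗[K] A} (hfmem : f ∈ (D.baseChange L).lev (D.genus * D.projDeg))
    (hQf : ∀ j, Qs j ≤ (zerosFin f).map some) : ∀ j, φ j f = 0 := by
  classical
  let c : Fin D.genus → L := fun j => φ j ((1 : L) ⊗ₜ D.uu)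
  have hcinj : Function.Injective c := h.injective
  have hΔ : ∀ j, aeval (c j) D.discP ≠ 0 := fun j h0 =>
    D.discP_ne_zero (transcendental_iff.mp (h.transcendental j) _ h0)
  let ι := Σ r : Fin D.projDeg, Fin (D.classGaps r)
  let eqv : ι ≃ Fin D.genus := Fintype.equivFinOfCardEq (by simp [ι, D.sum_classGaps])
  let W : Fin D.genus → A := fun i =>
    aeval D.uu ((X : K[X]) ^ ((eqv.symm i).2 : ℕ)) * D.dualW (eqv.symm i).1
  have hW : LinearIndependent K W := D.linearIndependent_powMulDual.comp _ eqv.symm.injective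
  have hdet := D.det_ne_zero_of_algebraicIndependent L D.genus W hW φ h
  let P : Fin D.genus → L := fun j => ∏ k ∈ Finset.univ.erase j, (c j - c k)
  let v : Fin D.genus → L := fun j => φ j f / (aeval (c j) D.discP * P j)
  have hv : Matrix.vecMul v (Matrix.of fun j i => φ j ((1 : L) ⊗ₜ W i)) = 0 := by
    funext i
    obtain ⟨r, p⟩ := eqv.symm i
    let Q : L[X] := X ^ ((eqv.symm i).2 : ℕ) * (D.baseChange L).coordP f (eqv.symm i).1
    have hQ : ∀ m, D.genus - 1 ≤ m → Q.coeff m = 0 := fun m hm =>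
      D.coeff_pow_mul_coordP_eq_zero L hfmem (eqv.symm i).2.2 hm
    have hzero : (0 : L) = ∑ j, Q.eval (c j) / P j := by
      have hdeg : Q.degree < (Finset.univ : Finset (Fin D.genus)).card := by
        rw [Finset.card_univ, Fintype.card_fin]
        exact (degree_lt_iff_coeff_zero Q _).mpr fun m hm => hQ m (by omega)
      have := Lagrange.coeff_eq_sum (s := (Finset.univ : Finset (Fin D.genus)))
        (fun a _ b _ hab => hcinj hab) hdeg
      rw [Finset.card_univ, Fintype.card_fin, hQ _ le_rfl] at this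
      exact this
    rw [Pi.zero_apply, hzero]
    simp only [Matrix.vecMul, dotProduct]
    refine Finset.sum_congr rfl fun j _ => ?_
    show v j * φ j ((1 : L) ⊗ₜ W i) = _
    have hWi : φ j ((1 : L) ⊗ₜ W i)
        = c j ^ ((eqv.symm i).2 : ℕ) * φ j ((1 : L) ⊗ₜ D.dualW (eqv.symm i).1) := by
      simp only [W, map_pow, aeval_X]
      rw [← map_pow, ← map_mul, Algebra.TensorProduct.tmul_pow, one_pow,
        Algebra.TensorProduct.tmul_mul_tmul, mul_one]
    have hev := D.eval_dualW_modProj L (φ j) (Qs j) f (hQs j) (hQf j) (eqv.symm i).1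
    rw [hWi, show Q.eval (c j) = c j ^ ((eqv.symm i).2 : ℕ)
        * (D.baseChange L).modProj f (c j) (eqv.symm i).1 by simp [Q, modProj]]
    change φ j f / (aeval (c j) D.discP * P j) * _ = _
    have hΔj := hΔ j
    calc φ j f / (aeval (c j) D.discP * P j)
          * (c j ^ ((eqv.symm i).2 : ℕ) * φ j ((1 : L) ⊗ₜ D.dualW (eqv.symm i).1))
        = c j ^ ((eqv.symm i).2 : ℕ) * (φ j ((1 : L) ⊗ₜ D.dualW (eqv.symm i).1) * φ j f)
            / (aeval (c j) D.discP * P j) := by ring
      _ = _ := by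
        rw [hev, show φ j ((1 : L) ⊗ₜ D.uu) = c j from rfl, mul_left_comm,
          mul_div_mul_left _ _ hΔj]
  have hfφ : ∀ j, φ j f = 0 := fun j => by
    have hv0 : v = 0 := by
      by_contra hne
      exact hdet (Matrix.exists_vecMul_eq_zero_iff.mp ⟨v, hne, hv⟩)
    have hP : P j ≠ 0 := Finset.prod_ne_zero_iff.mpr fun k hk =>
      sub_ne_zero.mpr fun hjk => (Finset.mem_erase.mp hk).1 (hcinj hjk).symm
    exact (div_eq_zero_iff.mp (congrFun hv0 j)).resolve_right (mul_ne_zero (hΔ j) hP)
  exact hfφ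

omit [IsAlgClosed K] [IsDedekindDomain A] [CharZero K] in
/-- If a divisor of degree `g`, padded at infinity, is linearly equivalent to `∑ φ j`, then together
with the rests of the fibres it is the divisor of zeros of a function. -/
theorem exists_zeros_eq_add_fibre_rests (φ : Fin D.genus → (L ⊗[K] A →ₐ[L] L))
    {Qs : Fin D.genus → Multiset (Pt L (L ⊗[K] A))}
    (hQs : ∀ j, (D.baseChange L).zeros D.projDeg
      (1 ⊗ₜ D.uu - algebraMap L _ (φ j (1 ⊗ₜ D.uu))) = some (φ j) ::ₘ Qs j)
    (hQcard : ∀ j, Multiset.card (Qs j) + 1 = D.projDeg) {E'' : Multiset (Pt L (L ⊗[K] A))}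
    (hcard : Multiset.card E'' = D.genus)
    (hcl : cl E'' = cl (Finset.univ.val.map fun j => some (φ j))) :
    ∃ f : L ⊗[K] A, f ≠ 0 ∧ f ∈ (D.baseChange L).lev (D.genus * D.projDeg) ∧
      (D.baseChange L).zeros (D.genus * D.projDeg) f = E'' + ∑ j, Qs j := by
  classical
  set E : Multiset (Pt L (L ⊗[K] A)) := Finset.univ.val.map fun j => some (φ j) with hE
  let c : Fin D.genus → L := fun j => φ j ((1 : L) ⊗ₜ D.uu)
  set E₂ := E'' + ∑ j, Qs j with hE₂
  have hclsum : ∀ f : Fin D.genus → Multiset (Pt L (L ⊗[K] A)),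
      cl (∑ j, f j) = ∑ j, cl (f j) := fun f =>
    map_sum (AddMonoidHom.mk' (cl (K := L) (A := L ⊗[K] A)) cl_add) f _
  have hs0 : ∀ j, (1 : L) ⊗ₜ[K] D.uu - algebraMap L (L ⊗[K] A) (c j) ≠ 0 := fun j => by
    have := (D.baseChange L).proj_sub_ne_zero (c j)
    rwa [D.baseChange_e L] at this
  have hEsum : E = ∑ j, {some (φ j)} := by
    rw [hE, ← Multiset.sum_map_singleton (Finset.univ.val.map _), Multiset.map_map]
    rfl
  have hcl2 : cl E₂ = 0 := by
    rw [hE₂, cl_add, hcl, hEsum, hclsum, hclsum,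
      ← Finset.sum_add_distrib]
    refine Finset.sum_eq_zero fun j _ => ?_
    rw [← cl_add, Multiset.singleton_add, ← hQs j]
    exact (D.baseChange L).cl_zeros (hs0 j)
  have hcard2 : Multiset.card E₂ = D.genus * D.projDeg := by
    rw [hE₂, Multiset.card_add, hcard, Multiset.card_sum]
    have h1 : ∑ j, (Multiset.card (Qs j) + 1) = D.genus * D.projDeg := by
      simp [hQcard]
    rw [Finset.sum_add_distrib] at h1
    simp at h1
    omega
  simpa [hcard2] using (D.baseChange L).exists_zeros_eq E₂ hcl2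

omit [IsAlgClosed K] [IsDedekindDomain A] in
/-- Points with algebraically independent projections form a good divisor. -/
theorem good_of_algebraicIndependent_aux (φ : Fin D.genus → (L ⊗[K] A →ₐ[L] L))
    (h : AlgebraicIndependent K fun j => φ j ((1 : L) ⊗ₜ D.e D.projDeg)) :
    (D.baseChange L).Good (Finset.univ.val.map fun j => some (φ j)) := by
  classical
  let c : Fin D.genus → L := fun j => φ j ((1 : L) ⊗ₜ D.uu)
  have hcinj : Function.Injective c := h.injective
  have hφinj : Function.Injective φ := fun i j hij => hcinj (by simp only [c, hij])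
  set E : Multiset (Pt L (L ⊗[K] A)) := Finset.univ.val.map fun j => some (φ j) with hE
  have hnd : E.Nodup :=
    Finset.univ.nodup.map fun i j hij => hφinj (Option.some_injective _ hij)
  have hcardE : Multiset.card E = D.genus := by simp [hE]
  have hnone : none ∉ E := by simp [hE]
  refine ⟨hnd, hcardE, hnone, fun E' hE'card hE'cl => ?_⟩
  change Multiset.card E' ≤ D.genus at hE'card
  set E'' := E' + Multiset.replicate (D.genus - Multiset.card E') none with hE''
  suffices hsub : ∀ j, some (φ j) ∈ E'' by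
    have hle : E ≤ E'' := (Multiset.le_iff_subset hnd).mpr fun P hP => by
      obtain ⟨j, -, rfl⟩ := Multiset.mem_map.mp hP
      exact hsub j
    have heq := Multiset.eq_of_le_of_card_le hle (by simp [hE'', hcardE]; omega)
    have hm : D.genus - Multiset.card E' = 0 := by
      by_contra hm
      refine hnone ?_
      rw [heq, hE'']
      exact Multiset.mem_add.mpr (Or.inr (Multiset.mem_replicate.mpr ⟨hm, rfl⟩))
    rw [heq, hE'', hm, Multiset.replicate_zero, add_zero]
  have hfib : ∀ j, ∃ Qs : Multiset (Pt L (L ⊗[K] A)),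
      (D.baseChange L).zeros D.projDeg (1 ⊗ₜ D.uu - algebraMap L _ (c j)) = some (φ j) ::ₘ Qs ∧
      none ∉ Qs ∧ Multiset.card Qs + 1 = D.projDeg ∧
      ∀ ψ, some ψ ∈ Qs → ψ ((1 : L) ⊗ₜ D.uu) = c j := fun j => by
    have := (D.baseChange L).exists_fibre (φ j)
    rw [D.uu_baseChange L] at this
    exact this
  choose Qs hQs hQnone hQcard hQval using hfib
  obtain ⟨f, hf0, hfmem, hfz⟩ := D.exists_zeros_eq_add_fibre_rests L φ hQs hQcard
    (E'' := E'') (by rw [hE'', Multiset.card_add, Multiset.card_replicate]; omega)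
    (by rw [hE'', cl_add, cl_replicate_none, add_zero, hE'cl])
  have hQf : ∀ j, Qs j ≤ (zerosFin f).map some := fun j =>
    (D.baseChange L).le_zerosFin_of_le_zeros (n := D.genus * D.projDeg) (hQnone j) (by
      rw [hfz]
      exact (Finset.single_le_sum (fun i _ => zero_le) (Finset.mem_univ j)).trans
        (Multiset.le_add_left _ _))
  have hΔ : ∀ j, aeval (c j) D.discP ≠ 0 := fun j h0 =>
    D.discP_ne_zero (transcendental_iff.mp (h.transcendental j) _ h0)
  have hfφ := D.apply_eq_zero_of_fibre_rests_le L φ h Qs hQs hfmem hQf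
  intro j
  have hmem : some (φ j) ∈ E'' + ∑ j, Qs j := by
    rw [← hfz]
    exact ((D.baseChange L).evSec_eq_zero_iff hf0 hfmem (some (φ j))).mp (hfφ j)
  rcases Multiset.mem_add.mp hmem with hj | hj
  · exact hj
  · exfalso
    obtain ⟨k, -, hk⟩ := Multiset.mem_sum.mp hj
    have hjk : j = k := hcinj (hQval k _ hk)
    subst hjk
    exact D.notMem_fibre_rest L (φ j) (Qs j) (hQs j) (hQnone j) (hΔ j) hk

end CurveBasis

end Fermat.Agent.MW
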