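import Fermat.Agent.MW.Canonical.Trace
import Mathlib.Algebra.BigOperators.Fin
import Mathlib.RingTheory.Polynomial.Basic
import Mathlib.LinearAlgebra.Dimension.Constructions

/-!
# The colength of the dual ideal

The pole orders occurring in the dual ideal are known exactly, so its colength is a count.
-/

set_option autoImplicit false

noncomputable section

open Polynomial Module

namespace Fermat.Agent.MW

variable {K A : Type} [Field K] [CommRing A] [Algebra K A] (D : CurveBasis K A)

namespace CurveBasis

/-- The number of gaps in the residue class of `r`. -/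
def classGaps (r : Fin D.projDeg) : ℕ := D.apery r / D.projDeg

/-- An Apéry number is its residue plus `projDeg` times the number of gaps in its class. -/
theorem apery_eq (r : Fin D.projDeg) : D.apery r = r + D.projDeg * D.classGaps r := by
  conv_lhs => rw [← Nat.mod_add_div (D.apery r) D.projDeg, D.apery_mod]
  rfl

/-- The gaps, counted class by class modulo `projDeg`, are `genus` in number. -/
theorem sum_classGaps : ∑ r, D.classGaps r = D.genus := by
  classical
  have hval : ∀ (r : Fin D.projDeg) (j : ℕ), ((r : ℕ) + D.projDeg * j) % D.projDeg = r :=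
    fun r j => by rw [Nat.add_mul_mod_self_left, Nat.mod_eq_of_lt r.2]
  rw [genus, show ∑ r, D.classGaps r =
      (Finset.univ.sigma fun r => Finset.range (D.classGaps r)).card by simp]
  refine Finset.card_bij (fun p _ => (p.1 : ℕ) + D.projDeg * p.2) ?_ ?_ ?_
  · rintro ⟨r, j⟩ hp
    simp only [Finset.mem_sigma, Finset.mem_univ, Finset.mem_range, true_and] at hp
    by_contra hh
    have := D.apery_le hh (hval r j)
    rw [D.apery_eq] at this
    simp only at this
    have := Nat.le_of_mul_le_mul_left (Nat.add_le_add_iff_left.mp this) D.projDeg_pos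
    omega
  · rintro ⟨r, i⟩ _ ⟨s, j⟩ _ h
    simp only at h
    have hrs : r = s := Fin.ext (by rw [← hval r i, h, hval])
    subst hrs
    rw [Nat.eq_of_mul_eq_mul_left D.projDeg_pos (Nat.add_left_cancel h)]
  · intro n hn
    refine ⟨⟨⟨n % D.projDeg, Nat.mod_lt _ D.projDeg_pos⟩, n / D.projDeg⟩, ?_,
      Nat.mod_add_div n D.projDeg⟩
    simp only [Finset.mem_sigma, Finset.mem_univ, Finset.mem_range, true_and]
    by_contra hh
    push Not at hh
    set r : Fin D.projDeg := ⟨n % D.projDeg, Nat.mod_lt _ D.projDeg_pos⟩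
    have hc := D.monDeg_notMem r (n / D.projDeg - D.classGaps r)
    have he : D.monDeg r (n / D.projDeg - D.classGaps r) = n := by
      rw [monDeg, D.apery_eq, Nat.mul_sub]
      have h1 := Nat.mod_add_div n D.projDeg
      have h2 := Nat.mul_le_mul_left D.projDeg hh
      show D.projDeg * (n / D.projDeg) - D.projDeg * D.classGaps r
        + (n % D.projDeg + D.projDeg * D.classGaps r) = n
      omega
    rw [he] at hc
    exact hc hn

theorem two_mul_sum_apery :
    2 * ∑ r, D.apery r + D.projDeg = D.projDeg * D.projDeg + 2 * D.projDeg * D.genus := by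
  simp only [D.apery_eq, Finset.sum_add_distrib, ← Finset.mul_sum, D.sum_classGaps]
  have h := Finset.sum_range_id_mul_two D.projDeg
  rw [Fin.sum_univ_eq_sum_range (fun i => i)]
  obtain ⟨m, hm⟩ : ∃ m, D.projDeg = m + 1 := ⟨2 * D.genus, rfl⟩
  rw [hm] at h ⊢
  simp only [Nat.add_sub_cancel] at h
  nlinarith

theorem aeval_uu_top (p : K[X]) :
    aeval D.uu p ∈ D.lev (D.projDeg * p.natDegree) ∧
      D.coeff (D.projDeg * p.natDegree) (aeval D.uu p) = p.leadingCoeff := by
  classical
  let z : Fin D.projDeg := ⟨0, D.projDeg_pos⟩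
  have hz : D.apery z = 0 := Nat.le_zero.mp (D.apery_le D.zero_notMem (Nat.zero_mod _))
  have hc : D.polyComb (Pi.single z p) = aeval D.uu p := by
    rw [polyComb_apply, Finset.sum_eq_single z]
    · rw [Pi.single_eq_same, eps, hz, D.e_zero, mul_one]
    · intro r _ hr; rw [Pi.single_eq_of_ne hr]; simp
    · simp
  have hb : D.Bounded (Pi.single z p) (D.projDeg * p.natDegree) := fun r j h => by
    rcases eq_or_ne r z with rfl | hr
    · rw [Pi.single_eq_same]
      refine coeff_eq_zero_of_natDegree_lt ?_
      rw [monDeg, hz, add_zero] at h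
      exact Nat.lt_of_mul_lt_mul_left h
    · rw [Pi.single_eq_of_ne hr]; simp
  obtain ⟨h1, h2⟩ := D.bounded_mem_top hb
  rw [hc] at h1 h2
  exact ⟨h1, by rw [h2 z _ (by rw [monDeg, hz, add_zero]), Pi.single_eq_same]; rfl⟩

/-- The top coefficient of `p(u) • dualW r` is the product of the two leading coefficients. -/
theorem aeval_mul_dualW_top [CharZero K] (p : K[X]) (r : Fin D.projDeg) :
    aeval D.uu p * D.dualW r ∈ D.lev (D.projDeg * p.natDegree + D.deg (D.dualW r)) ∧
      D.coeff (D.projDeg * p.natDegree + D.deg (D.dualW r)) (aeval D.uu p * D.dualW r)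
        = p.leadingCoeff * D.coeff (D.deg (D.dualW r)) (D.dualW r) :=
  ⟨D.mul_mem_lev (D.aeval_uu_top p).1 (D.mem_lev_deg _),
    by rw [D.coeff_mul_top (D.aeval_uu_top p).1 (D.mem_lev_deg _), (D.aeval_uu_top p).2]⟩

theorem dualW_deg_mod [CharZero K] (r : Fin D.projDeg) :
    D.deg (D.dualW r) % D.projDeg = D.mirror r := by
  have h : ((r : ℕ) + D.deg (D.dualW r) % D.projDeg) % D.projDeg = 0 := by
    rw [Nat.add_mod_mod, ← D.apery_mod r, Nat.mod_add_mod, add_comm, D.deg_dualW,
      Nat.mul_mod_right]
  exact congrArg Fin.val (D.eq_mirror (s := ⟨_, Nat.mod_lt _ D.projDeg_pos⟩) h)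

/-- The pole orders of nonzero elements of the dual ideal. -/
theorem deg_mem_dual [CharZero K] {f : A} (hf0 : f ≠ 0) (hf : f ∈ Ideal.span (Set.range D.dualW)) :
    ∃ r j, D.deg f = D.projDeg * j + D.deg (D.dualW r) := by
  classical
  obtain ⟨q, rfl⟩ := D.exists_eq_sum_dualW hf
  set S : Finset (Fin D.projDeg) := Finset.univ.filter fun r => q r ≠ 0
  have hS : S.Nonempty := by
    by_contra h
    rw [Finset.not_nonempty_iff_eq_empty, Finset.filter_eq_empty_iff] at h
    refine hf0 (Finset.sum_eq_zero fun r _ => ?_)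
    rw [not_not.mp (h (Finset.mem_univ r)), map_zero, zero_mul]
  set m : Fin D.projDeg → ℕ := fun r => D.projDeg * (q r).natDegree + D.deg (D.dualW r)
  obtain ⟨r₀, hr₀, hmax⟩ := S.exists_max_image m hS
  refine ⟨r₀, (q r₀).natDegree, ?_⟩
  have hle : ∀ r, aeval D.uu (q r) * D.dualW r ∈ D.lev (m r₀) := fun r => by
    by_cases hr : q r = 0
    · simp [hr]
    · exact D.lev_mono (hmax r (by simp [S, hr])) (D.aeval_mul_dualW_top _ r).1
  refine D.deg_eq_of_mem_lev (Submodule.sum_mem _ fun r _ => hle r) ?_
  rw [map_sum, Finset.sum_eq_single r₀]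
  · rw [(D.aeval_mul_dualW_top _ r₀).2]
    exact mul_ne_zero (leadingCoeff_ne_zero.mpr (Finset.mem_filter.mp hr₀).2)
      (D.coeff_deg_ne_zero (D.dualW_ne_zero r₀))
  · intro r _ hr
    by_cases hq : q r = 0
    · simp [hq]
    refine D.coeff_eq_zero_of_mem (D.aeval_mul_dualW_top _ r).1
      (lt_of_le_of_ne (hmax r (by simp [S, hq])) fun he => hr ?_)
    have h1 := congrArg (· % D.projDeg) he
    simp only [Nat.mul_add_mod, D.dualW_deg_mod] at h1
    rw [← D.mirror_mirror r, Fin.ext h1, D.mirror_mirror]
  · simp

/-- The colength of the dual ideal. -/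
theorem finrank_quotient_dual [CharZero K] :
    FiniteDimensional K (A ⧸ Ideal.span (Set.range D.dualW)) ∧
    finrank K (A ⧸ Ideal.span (Set.range D.dualW)) + D.projDeg + 2 * D.genus
      = D.projDeg * D.discP.natDegree + 1 := by
  classical
  set I := Ideal.span (Set.range D.dualW)
  have hd : ∀ s, ∃ k, D.monDeg s k = D.deg (D.dualW (D.mirror s)) := fun s => by
    obtain ⟨r, k, hk⟩ := D.exists_monDeg_eq (D.deg_notMem_gaps (D.dualW (D.mirror s)))
    have : r = s := Fin.ext (by
      rw [← D.monDeg_mod r k, hk, D.dualW_deg_mod, D.mirror_mirror])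
    exact ⟨k, this ▸ hk⟩
  choose L hL using hd
  let ψ : (∀ s : Fin D.projDeg, degreeLT K (L s)) →ₗ[K] A ⧸ I :=
    ((Ideal.Quotient.mkₐ K I).toLinearMap.comp D.polyComb).comp
      (LinearMap.pi fun s => (degreeLT K (L s)).subtype.comp (LinearMap.proj s))
  have hψ : ∀ c, ψ c = Ideal.Quotient.mk I (D.polyComb fun s => (c s : K[X])) := fun c => rfl
  have hinj : Function.Injective ψ := by
    rw [injective_iff_map_eq_zero]
    intro c hc
    rw [hψ, Ideal.Quotient.eq_zero_iff_mem] at hc
    set f := D.polyComb fun s => (c s : K[X]) with hf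
    have hcoord : ∀ s j, L s ≤ j → (D.coordP f s).coeff j = 0 := fun s j hj => by
      rw [D.coordP_eq hf.symm]
      refine coeff_eq_zero_of_degree_lt ((mem_degreeLT.mp (c s).2).trans_le ?_)
      exact_mod_cast hj
    by_cases hf0 : f = 0
    · have := D.polyComb_injective ((hf0).trans D.polyComb.map_zero.symm)
      exact funext fun s => Subtype.ext (congrFun this s)
    · exfalso
      obtain ⟨r, j, hrj⟩ := D.deg_mem_dual hf0 hc
      obtain ⟨s, i, hsi⟩ := D.exists_monDeg_eq (D.deg_notMem_gaps f)
      have hne : (D.coordP f s).coeff i ≠ 0 := by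
        rw [D.coeff_coordP (hsi ▸ D.mem_lev_deg f), hsi]; exact D.coeff_deg_ne_zero hf0
      refine hne (hcoord s i ?_)
      have hsr : D.mirror s = r := by
        rw [← D.mirror_mirror r]
        congr 1
        refine Fin.ext ?_
        rw [← D.monDeg_mod s i, hsi, hrj, Nat.mul_add_mod, D.dualW_deg_mod]
      have h := hL s
      rw [hsr] at h
      simp only [monDeg] at h hsi
      refine Nat.le_of_mul_le_mul_left ?_ D.projDeg_pos
      omega
  have hsurj : Function.Surjective ψ := by
    intro x
    obtain ⟨f, rfl⟩ := Ideal.Quotient.mk_surjective x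
    suffices ∀ N, ∀ f ∈ D.lev N, Ideal.Quotient.mk I f ∈ LinearMap.range ψ from
      this _ f (D.mem_lev_deg f)
    intro N
    induction N using Nat.strong_induction_on with
    | _ N ih =>
      intro f hf
      have key : ∀ g ∈ D.lev N, D.coeff N g = 0 → Ideal.Quotient.mk I g ∈ LinearMap.range ψ := by
        intro g hg h0
        rcases Nat.eq_zero_or_pos N with rfl | hN
        · rw [D.eq_zero_of_mem_lev_zero hg, h0, zero_smul, map_zero]
          exact zero_mem _
        · refine ih (N - 1) (by omega) g (D.mem_lev_iff.mpr fun m hm => ?_)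
          rcases eq_or_lt_of_le (show N ≤ m by omega) with rfl | h
          · exact h0
          · exact D.coeff_eq_zero_of_mem hg h
      by_cases hN : N ∈ D.gaps
      · exact key f hf (D.coeff_gap hN f)
      obtain ⟨s, i, hsi⟩ := D.exists_monDeg_eq hN
      by_cases hi : i < L s
      · let c : ∀ t : Fin D.projDeg, degreeLT K (L t) := fun t =>
          if h : t = s then ⟨monomial i (D.coeff N f), mem_degreeLT.mpr
            ((degree_monomial_le _ _).trans_lt (by subst h; exact_mod_cast hi))⟩ else 0
        have hb : D.Bounded (fun t => (c t : K[X])) N := fun t j h => by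
          simp only [c]
          split_ifs with ht
          · subst ht
            rw [coeff_monomial, if_neg (fun h' => by subst h'; omega)]
          · simp
        obtain ⟨h1, h2⟩ := D.bounded_mem_top hb
        have := key (f - D.polyComb fun t => (c t : K[X])) (sub_mem hf h1) (by
          rw [map_sub, h2 s i hsi]; simp [c])
        rw [map_sub, ← hψ] at this
        simpa using add_mem this (LinearMap.mem_range_self ψ c)
      · set p : K[X] := monomial (i - L s)
          (D.coeff N f / D.coeff (D.deg (D.dualW (D.mirror s))) (D.dualW (D.mirror s)))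
        set g := aeval D.uu p * D.dualW (D.mirror s)
        have hgI : g ∈ I := I.mul_mem_left _ (Ideal.subset_span ⟨_, rfl⟩)
        obtain ⟨h1, h2⟩ : g ∈ D.lev N ∧ D.coeff N g = D.coeff N f := by
          obtain ⟨t1, t2⟩ := D.aeval_mul_dualW_top p (D.mirror s)
          by_cases hp : D.coeff N f = 0
          · simp [g, p, hp]
          have hlc := D.coeff_deg_ne_zero (D.dualW_ne_zero (D.mirror s))
          have hdeg : D.projDeg * p.natDegree + D.deg (D.dualW (D.mirror s)) = N := by
            rw [natDegree_monomial_eq _ (div_ne_zero hp hlc), ← hL s, ← hsi]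
            simp only [monDeg]
            rw [← add_assoc, ← Nat.mul_add, Nat.sub_add_cancel (not_lt.mp hi)]
          rw [hdeg] at t1 t2
          exact ⟨t1, by rw [t2, leadingCoeff_monomial, div_mul_cancel₀ _ hlc]⟩
        have := key (f - g) (sub_mem hf h1) (by rw [map_sub, h2, sub_self])
        rwa [map_sub, Ideal.Quotient.eq_zero_iff_mem.mpr hgI, sub_zero] at this
  let e := LinearEquiv.ofBijective ψ ⟨hinj, hsurj⟩
  have : ∀ s, Module.Finite K (degreeLT K (L s)) := fun s =>
    Module.Finite.equiv (degreeLTEquiv K (L s)).symm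
  refine ⟨Module.Finite.equiv e, ?_⟩
  rw [← e.finrank_eq, Module.finrank_pi_fintype,
    Finset.sum_congr rfl fun s _ => by rw [(degreeLTEquiv K (L s)).finrank_eq, finrank_fin_fun]]
  have hsum : ∑ s, (D.projDeg * L s + D.apery s + D.apery (D.mirror s))
      = D.projDeg * (D.projDeg * D.discP.natDegree) := by
    rw [Finset.sum_congr rfl fun s _ => by
      rw [show D.projDeg * L s + D.apery s = D.deg (D.dualW (D.mirror s)) from hL s, D.deg_dualW],
      Finset.sum_const, Finset.card_univ, Fintype.card_fin, smul_eq_mul]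
  have hperm : ∑ s, D.apery (D.mirror s) = ∑ s, D.apery s :=
    Fintype.sum_bijective D.mirror (Function.Involutive.bijective D.mirror_mirror) _ _ fun _ => rfl
  rw [Finset.sum_add_distrib, Finset.sum_add_distrib, ← Finset.mul_sum, hperm] at hsum
  have h2 := D.two_mul_sum_apery
  refine Nat.eq_of_mul_eq_mul_left D.projDeg_pos ?_
  nlinarith

end CurveBasis

end Fermat.Agent.MW
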