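import Fermat.Agent.MW.Core.API
import Mathlib.RingTheory.DedekindDomain.Ideal.Lemmas

/-!
# The points of an ideal and its colength

The finite zeros of an ideal, with multiplicities; their number is the colength of the ideal.
-/

set_option autoImplicit false

noncomputable section

open Module UniqueFactorizationMonoid

namespace Fermat.Agent.MW

variable {K A : Type} [Field K] [CommRing A] [Algebra K A]

variable [IsAlgClosed K] [IsDedekindDomain A] (D : CurveBasis K A)

open scoped Classical in
/-- The finite points of the zero divisor of an ideal. -/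
def ptsOf (I : Ideal A) : Multiset (A →ₐ[K] K) :=
  (normalizedFactors I).filterMap fun M =>
    if h : ∃ φ : A →ₐ[K] K, ptIdeal φ = M then some h.choose else none

omit [IsAlgClosed K] in
/-- The finite zeros of `f` are the points of the ideal `(f)`. -/
theorem zerosFin_eq_ptsOf (f : A) : zerosFin (K := K) f = ptsOf (Ideal.span {f}) := rfl

include D in
theorem map_ptsOf {I : Ideal A} (_hI : I ≠ ⊥) :
    (ptsOf (K := K) I).map ptIdeal = normalizedFactors I := by
  classical
  rw [ptsOf, Multiset.map_filterMap]
  have aux : ∀ (g : Ideal A → Option (Ideal A)) (s : Multiset (Ideal A)),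
      (∀ M ∈ s, g M = some M) → s.filterMap g = s := by
    intro g s
    induction s using Multiset.induction_on with
    | empty => simp
    | cons M s ih =>
      intro h
      rw [Multiset.filterMap_cons_some _ _ _ (h M (Multiset.mem_cons_self _ _)),
        ih fun N hN => h N (Multiset.mem_cons_of_mem hN)]
  refine aux _ _ fun M hM => ?_
  have hp := prime_of_normalized_factor M hM
  have := (Ideal.isPrime_of_prime hp).isMaximal hp.ne_zero
  have hex := D.exists_ptIdeal_eq M
  rw [dif_pos hex, Option.map_some, hex.choose_spec]

include D in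
/-- The multiplicity of a point in `ptsOf I` is the exponent of its ideal in `I`. -/
theorem count_ptsOf [DecidableEq (A →ₐ[K] K)] [DecidableEq (Ideal A)] {I : Ideal A} (hI : I ≠ ⊥)
    (φ : A →ₐ[K] K) :
    (ptsOf (K := K) I).count φ = (normalizedFactors I).count (ptIdeal φ) := by
  rw [← map_ptsOf D hI, Multiset.count_map_eq_count' _ _ ptIdeal_injective]

include D in
/-- A smaller ideal has more points. -/
theorem ptsOf_mono {I J : Ideal A} (hJ : J ≠ ⊥) (h : J ≤ I) :
    ptsOf (K := K) I ≤ ptsOf (K := K) J := by
  classical
  have hI : I ≠ ⊥ := fun h0 => hJ (le_bot_iff.mp (h0 ▸ h))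
  refine Multiset.le_iff_count.mpr fun φ => ?_
  rw [count_ptsOf D hI, count_ptsOf D hJ]
  exact Multiset.le_iff_count.mp
    ((dvd_iff_normalizedFactors_le_normalizedFactors hI hJ).mp (Ideal.dvd_iff_le.mpr h)) _

include D in
/-- The number of points of an ideal is its colength. -/
theorem card_ptsOf {I : Ideal A} (hI : I ≠ ⊥) :
    Multiset.card (ptsOf (K := K) I) = finrank K (A ⧸ I) := by
  have hprod : divIdeal (ptsOf (K := K) I) = I := by
    rw [divIdeal, map_ptsOf D hI]
    exact associated_iff_eq.mp (prod_normalizedFactors hI)
  conv_rhs => rw [← hprod]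
  exact (D.finrank_quotient_divIdeal _).symm

end Fermat.Agent.MW
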