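import Fermat.Agent.MW.Canonical.Trace
import Mathlib.LinearAlgebra.TensorProduct.Finiteness

/-!
# Division by `u - c`

Every function is congruent modulo `u - c` to a unique combination of the basis over `K[u]` with
constant coefficients.
-/

set_option autoImplicit false

noncomputable section

open scoped TensorProduct
open Polynomial Module

namespace Fermat.Agent.MW

variable {K A : Type} [Field K] [CommRing A] [Algebra K A] (D : CurveBasis K A)

namespace CurveBasis

theorem aeval_uu_sub_mem (p : K[X]) (c : K) :
    aeval D.uu p - algebraMap K A (p.eval c) ∈ Ideal.span {D.uu - algebraMap K A c} := by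
  obtain ⟨q, hq⟩ := X_sub_C_dvd_sub_C_eval (a := c) (p := p)
  have h := congrArg (aeval D.uu) hq
  simp only [map_sub, map_mul, aeval_X, aeval_C] at h
  exact Ideal.mem_span_singleton.mpr ⟨_, h⟩

/-- The remainder of `f` modulo `u - c`. -/
def modProj (f : A) (c : K) (j : Fin D.projDeg) : K := (D.coordP f j).eval c

/-- A function is congruent to the combination of its remainders modulo `u - c`. -/
theorem sub_modProj_mem (f : A) (c : K) :
    f - ∑ j, D.modProj f c j • D.eps j ∈ Ideal.span {D.uu - algebraMap K A c} := by
  have h : f - ∑ j, D.modProj f c j • D.eps j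
      = ∑ j, (aeval D.uu (D.coordP f j) * D.eps j - D.modProj f c j • D.eps j) := by
    rw [Finset.sum_sub_distrib, ← polyComb_apply, polyComb_coordP]
  rw [h]
  refine Submodule.sum_mem _ fun j _ => ?_
  rw [Algebra.smul_def, ← sub_mul]
  exact Ideal.mul_mem_right _ _ (D.aeval_uu_sub_mem _ c)

theorem modProj_eq_zero_of_mem {f : A} {c : K}
    (h : f ∈ Ideal.span {D.uu - algebraMap K A c}) (j : Fin D.projDeg) : D.modProj f c j = 0 := by
  obtain ⟨y, rfl⟩ := Ideal.mem_span_singleton.mp h
  have : D.uu - algebraMap K A c = aeval D.uu (X - C c) := by simp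
  rw [modProj, this, D.coordP_aeval_mul]
  simp

/-- The remainders modulo `u - c` are unique. -/
theorem modProj_unique {f : A} {c : K} {p : Fin D.projDeg → K}
    (h : f - ∑ j, p j • D.eps j ∈ Ideal.span {D.uu - algebraMap K A c}) (j : Fin D.projDeg) :
    D.modProj f c j = p j := by
  have h0 := D.modProj_eq_zero_of_mem h j
  classical
  simp only [modProj, map_sub, map_sum, map_smul, Pi.sub_apply, Finset.sum_apply, Pi.smul_apply,
    D.coordP_eps, eval_sub, eval_finsetSum, eval_smul, sub_eq_zero] at h0
  rw [modProj, h0, Finset.sum_eq_single j] <;> simp +contextual [eq_comm]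

end CurveBasis

end Fermat.Agent.MW
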