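import Fermat.Agent.MW.Canonical.Colength
import Fermat.Agent.MW.Canonical.ModProj
import Fermat.Agent.MW.Canonical.IdealPoints

/-!
# The trace-dual family as `DualData`

The dual family `Δ • eps*` of the basis over `K[u]` has a base divisor of known degree and evaluates
at a point of a fibre of `u` as the coordinate of a function vanishing on the rest of the fibre.
-/

set_option autoImplicit false

noncomputable section

open scoped TensorProduct
open Polynomial Module

namespace Fermat.Agent.MW

variable {K A : Type} [Field K] [CommRing A] [Algebra K A] (D : CurveBasis K A)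

namespace CurveBasis

/-- The projection function of a base change is the base change of the projection function. -/
theorem uu_baseChange (L : Type) [Field L] [Algebra K L] :
    (D.baseChange L).uu = (1 : L) ⊗ₜ[K] D.uu :=
  D.baseChange_e L _

theorem traceP_baseChange (L : Type) [Field L] [Algebra K L] (x : A) :
    (D.baseChange L).traceP ((1 : L) ⊗ₜ x) = (D.traceP x).map (algebraMap K L) := by
  rw [traceP_apply, traceP_apply, Polynomial.map_sum]
  refine Finset.sum_congr rfl fun (j : Fin D.projDeg) _ => ?_
  show (D.baseChange L).coordP ((1 : L) ⊗ₜ[K] x * (D.baseChange L).e (D.apery j)) j = _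
  rw [D.baseChange_e L, Algebra.TensorProduct.tmul_mul_tmul, mul_one, D.coordP_baseChange]

variable [IsDedekindDomain A]

variable [IsAlgClosed K]

omit [IsAlgClosed K] in
/-- The divisor of zeros of `u - c` in degree `projDeg` has no point at infinity. -/
theorem zeros_sub_algebraMap_uu (c : K) :
    D.zeros D.projDeg (D.uu - algebraMap K A c)
      = (zerosFin (K := K) (D.uu - algebraMap K A c)).map some := by
  rw [CurveBasis.zeros, D.deg_proj_sub, Nat.sub_self, Multiset.replicate_zero, add_zero]

/-- A product of a function vanishing at `φ` and one vanishing on the rest of its fibre lies in the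
ideal of the fibre. -/
theorem mul_mem_span_fibre (φ : A →ₐ[K] K) (Qs : Multiset (Pt K A)) (f x : A)
    (hfib : D.zeros D.projDeg (D.uu - algebraMap K A (φ D.uu)) = some φ ::ₘ Qs)
    (hf : f = 0 ∨ Qs ≤ (zerosFin (K := K) f).map some) (hx : φ x = 0) :
    x * f ∈ Ideal.span {D.uu - algebraMap K A (φ D.uu)} := by
  rcases eq_or_ne f 0 with rfl | hf0
  · simp
  rcases eq_or_ne x 0 with rfl | hx0
  · simp
  set s := D.uu - algebraMap K A (φ D.uu)
  have hxm : x ∈ D.lev (D.projDeg + D.deg x) :=
    D.lev_mono (Nat.le_add_left _ _) (D.mem_lev_deg x)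
  have hle : D.zeros D.projDeg s ≤ D.zeros (D.projDeg + (D.deg x + D.deg f)) (x * f) := by
    rw [← add_assoc, D.zeros_mul hx0 hf0 hxm (D.mem_lev_deg f), hfib,
      ← Multiset.singleton_add]
    refine add_le_add (Multiset.singleton_le.mpr ?_) ?_
    · exact (D.evSec_eq_zero_iff hx0 hxm (some φ)).mp hx
    · exact (hf.resolve_left hf0).trans (Multiset.le_add_right _ _)
  obtain ⟨y, -, hy⟩ := D.exists_eq_mul_of_zeros_le (D.proj_sub_ne_zero _)
    (mul_ne_zero hx0 hf0) (D.proj_sub_mem _)
    (D.lev_mono (Nat.le_add_left _ _) (D.mul_mem_lev (D.mem_lev_deg x) (D.mem_lev_deg f))) hle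
  exact Ideal.mem_span_singleton.mpr ⟨y, hy⟩

/-- Evaluation of a dual element at a point of a fibre. -/
theorem eval_dual_eq (φ : A →ₐ[K] K) (Qs : Multiset (Pt K A)) (f W : A)
    (i : Fin D.projDeg) (Δ : K[X])
    (hW : ∀ j, D.traceP (D.eps j * W) = if j = i then Δ else 0)
    (hfib : D.zeros D.projDeg (D.uu - algebraMap K A (φ D.uu)) = some φ ::ₘ Qs)
    (hf : f = 0 ∨ Qs ≤ (zerosFin (K := K) f).map some) :
    φ W * φ f = Δ.eval (φ D.uu) * D.modProj f (φ D.uu) i := by
  classical
  set c := φ D.uu
  set I := Ideal.span {D.uu - algebraMap K A c}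
  let T : A →ₗ[K] K := (Polynomial.leval c).comp D.traceP
  have hT : ∀ y ∈ I, T y = 0 := by
    intro y hy
    obtain ⟨z, rfl⟩ := Ideal.mem_span_singleton.mp hy
    show (D.traceP ((D.uu - algebraMap K A c) * z)).eval c = 0
    rw [show D.uu - algebraMap K A c = aeval D.uu (X - C c) by simp, D.traceP_aeval_mul]
    simp
  have hkill : ∀ x, x * f - φ x • f ∈ I := fun x => by
    rw [Algebra.smul_def, ← sub_mul]
    exact D.mul_mem_span_fibre φ Qs f _ hfib hf (by simp)
  -- trace of `f`
  have hmod : f - ∑ j, D.modProj f c j • D.eps j ∈ I := D.sub_modProj_mem f c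
  have hTf : T f = φ f := by
    have h1 : ∀ j, (D.coordP (f * D.eps j) j).eval c = φ (D.eps j) * D.modProj f c j := fun j => by
      refine D.modProj_unique (p := fun k => φ (D.eps j) * D.modProj f c k) ?_ j
      have h2 := add_mem (hkill (D.eps j)) (Submodule.smul_of_tower_mem I (φ (D.eps j)) hmod)
      rw [smul_sub, Finset.smul_sum, sub_add_sub_cancel] at h2
      rw [mul_comm f]
      simpa only [smul_smul] using h2
    show (D.traceP f).eval c = φ f
    rw [traceP_apply, eval_finsetSum, Finset.sum_congr rfl fun j _ => h1 j]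
    have hker : ∀ y ∈ I, φ y = 0 := fun y hy => by
      obtain ⟨z, rfl⟩ := Ideal.mem_span_singleton.mp hy
      simp [c]
    have h3 := hker _ hmod
    rw [map_sub, map_sum, sub_eq_zero] at h3
    rw [h3]
    exact Finset.sum_congr rfl fun j _ => by rw [map_smul, smul_eq_mul, mul_comm]
  -- trace of `W * f`
  have h4 : T (W * f) = φ W * φ f := by
    have := hT _ (hkill W)
    rw [map_sub, map_smul, hTf, smul_eq_mul, sub_eq_zero] at this
    exact this
  have h5 : T (W * f) = Δ.eval c * D.modProj f c i := by
    have := hT _ (Ideal.mul_mem_left I W hmod)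
    rw [mul_sub, map_sub, sub_eq_zero] at this
    rw [this, Finset.mul_sum, map_sum, Finset.sum_eq_single i]
    · rw [mul_smul_comm, map_smul, smul_eq_mul, mul_comm W]
      show _ * (D.traceP (D.eps i * W)).eval c = _
      rw [hW, if_pos rfl, mul_comm]
    · intro j _ hj
      rw [mul_smul_comm, map_smul, mul_comm W]
      show _ • (D.traceP (D.eps j * W)).eval c = 0
      rw [hW, if_neg hj, eval_zero, smul_zero]
    · simp
  rw [← h4, h5]

omit [IsDedekindDomain A] [IsAlgClosed K] in
/-- At a point of a fibre, `dualW` gives the coordinates of a function vanishing at the others. -/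
theorem eval_dualW (L : Type) [Field L] [Algebra K L] [IsAlgClosed L]
    [IsDedekindDomain (L ⊗[K] A)] (φ : L ⊗[K] A →ₐ[L] L) (Qs : Multiset (Pt L (L ⊗[K] A)))
    (f : L ⊗[K] A) (p : Fin D.projDeg → L)
    (hfib : (D.baseChange L).zeros D.projDeg
        (1 ⊗ₜ D.e D.projDeg - algebraMap L _ (φ (1 ⊗ₜ D.e D.projDeg))) = some φ ::ₘ Qs)
    (hf : f = 0 ∨ Qs ≤ (zerosFin f).map some)
    (hp : (f - ∑ j, p j • ((1 : L) ⊗ₜ D.e (D.apery j))) ∈
      Ideal.span {(1 : L) ⊗ₜ D.e D.projDeg - algebraMap L _ (φ (1 ⊗ₜ D.e D.projDeg))})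
    (i : Fin D.projDeg) :
    φ (1 ⊗ₜ D.dualW i) * φ f
      = Polynomial.aeval (φ (1 ⊗ₜ D.e D.projDeg)) D.discP * p i := by
  classical
  have hu := D.uu_baseChange L
  have heps : ∀ j : Fin D.projDeg, (D.baseChange L).eps j = (1 : L) ⊗ₜ[K] D.eps j := fun j =>
    D.baseChange_e L _
  have h := (D.baseChange L).eval_dual_eq φ Qs f ((1 : L) ⊗ₜ[K] D.dualW i) i
    (D.discP.map (algebraMap K L)) (fun (j : Fin D.projDeg) => by
      rw [heps j, Algebra.TensorProduct.tmul_mul_tmul, mul_one, D.traceP_baseChange,
        D.traceP_eps_mul_dualW]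
      by_cases hji : j = i
      · rw [if_pos hji]
        exact (if_pos hji).symm
      · rw [if_neg hji, Polynomial.map_zero]
        exact (if_neg hji).symm)
    (by rw [hu]; exact hfib) hf
  rw [h, hu, Polynomial.eval_map, ← aeval_def]
  congr 1
  refine (D.baseChange L).modProj_unique (p := p) ?_ i
  show f - ∑ j : Fin D.projDeg, p j • (D.baseChange L).eps j ∈ _
  simp only [heps, hu]
  exact hp

variable [CharZero K]

/-- The zero divisor of the dual ideal, with the zeros at infinity of its sections of degree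
`δ * embDeg`. -/
def dualR : Multiset (Pt K A) :=
  (ptsOf (K := K) (Ideal.span (Set.range D.dualW))).map some +
    Multiset.replicate (D.discP.natDegree * D.embDeg - D.projDeg * D.discP.natDegree) none

omit [IsDedekindDomain A] [IsAlgClosed K] [CharZero K] in
/-- The degree bound needed to regard the dual family as a family of sections. -/
theorem projDeg_mul_le : D.projDeg * D.discP.natDegree ≤ D.discP.natDegree * D.embDeg := by
  rw [mul_comm]; exact Nat.mul_le_mul_left _ (by simp only [projDeg, embDeg]; omega)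

omit [IsDedekindDomain A] [IsAlgClosed K] in
theorem dualW_mem (i : Fin D.projDeg) : D.dualW i ∈ D.lev (D.discP.natDegree * D.embDeg) :=
  D.lev_mono (le_trans (by rw [← D.deg_dualW i]; omega) D.projDeg_mul_le) (D.mem_lev_deg _)

omit [IsDedekindDomain A] [IsAlgClosed K] in
/-- The ideal generated by the dual family is nonzero. -/
theorem dualIdeal_ne_bot : Ideal.span (Set.range D.dualW) ≠ ⊥ := fun h =>
  D.dualW_ne_zero ⟨0, D.projDeg_pos⟩ (Ideal.span_eq_bot.mp h _ ⟨_, rfl⟩)

omit [IsDedekindDomain A] [IsAlgClosed K] [CharZero K] in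
theorem count_some_add_replicate [DecidableEq (A →ₐ[K] K)] [DecidableEq (Pt K A)]
    (s : Multiset (A →ₐ[K] K)) (m : ℕ) (φ : A →ₐ[K] K) :
    (s.map some + Multiset.replicate m none).count (some φ) = s.count φ := by
  rw [Multiset.count_add, Multiset.count_map_eq_count' _ _ (Option.some_injective _),
    Multiset.count_replicate, if_neg (by simp), add_zero]

omit [IsDedekindDomain A] [IsAlgClosed K] [CharZero K] in
theorem count_none_add_replicate [DecidableEq (Pt K A)]
    (s : Multiset (A →ₐ[K] K)) (m : ℕ) :
    (s.map some + Multiset.replicate m none).count none = m := by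
  rw [Multiset.count_add, Multiset.count_eq_zero_of_notMem (by simp),
    Multiset.count_replicate, if_pos rfl, zero_add]

theorem dualR_le_zeros {w : A} (hw : w ∈ Submodule.span K (Set.range D.dualW)) (hw0 : w ≠ 0) :
    D.dualR ≤ D.zeros (D.discP.natDegree * D.embDeg) w := by
  classical
  refine add_le_add (Multiset.map_le_map ?_) (Multiset.replicate_le_replicate _ |>.mpr ?_)
  · rw [zerosFin_eq_ptsOf]
    refine ptsOf_mono D (by simpa using hw0) ((Ideal.span_singleton_le_iff_mem _).mpr ?_)
    exact (Submodule.span_le_restrictScalars K A (Set.range D.dualW)) hw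
  · refine Nat.sub_le_sub_left (D.deg_le_of_mem_lev ((Submodule.span_le.mpr ?_) hw)) _
    rintro _ ⟨i, rfl⟩
    exact D.lev_mono (by rw [← D.deg_dualW i]; omega) (D.mem_lev_deg _)

theorem dualR_exact [DecidableEq (Pt K A)] (P : Pt K A) : ∃ i, D.dualW i ≠ 0 ∧
    (D.zeros (D.discP.natDegree * D.embDeg) (D.dualW i)).count P = D.dualR.count P := by
  classical
  cases P with
  | none =>
    refine ⟨⟨0, D.projDeg_pos⟩, D.dualW_ne_zero _, ?_⟩
    rw [CurveBasis.zeros, dualR, count_none_add_replicate, count_none_add_replicate,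
      ← D.deg_dualW ⟨0, D.projDeg_pos⟩,
      show D.apery ⟨0, D.projDeg_pos⟩ = 0 from
        Nat.le_zero.mp (D.apery_le D.zero_notMem (Nat.zero_mod _)), add_zero]
  | some φ =>
    set c := (ptsOf (K := K) (Ideal.span (Set.range D.dualW))).count φ with hc
    have hge : ∀ i, c ≤ (zerosFin (K := K) (D.dualW i)).count φ := fun i =>
      Multiset.le_iff_count.mp (by
        rw [zerosFin_eq_ptsOf]
        exact ptsOf_mono D (by simpa using D.dualW_ne_zero i)
          ((Ideal.span_singleton_le_iff_mem _).mpr (Ideal.subset_span ⟨i, rfl⟩))) φ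
    by_contra hh
    push Not at hh
    have hlt : ∀ i, c + 1 ≤ (zerosFin (K := K) (D.dualW i)).count φ := fun i => by
      have h1 := hh i (D.dualW_ne_zero i)
      rw [CurveBasis.zeros, dualR, count_some_add_replicate, count_some_add_replicate] at h1
      have := hge i
      omega
    have hpow : ∀ J : Ideal A, J ≠ ⊥ → (c + 1 ≤ (ptsOf (K := K) J).count φ ↔
        J ≤ ptIdeal φ ^ (c + 1)) := fun J hJ => by
      have hp : Prime (ptIdeal φ) := Ideal.prime_of_isPrime (D.ptIdeal_ne_bot φ)
        inferInstance
      rw [count_ptsOf D hJ, ← Ideal.dvd_iff_le,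
        UniqueFactorizationMonoid.dvd_iff_normalizedFactors_le_normalizedFactors
          (pow_ne_zero _ (D.ptIdeal_ne_bot φ)) hJ,
        UniqueFactorizationMonoid.normalizedFactors_pow,
        UniqueFactorizationMonoid.normalizedFactors_irreducible hp.irreducible,
        Multiset.nsmul_singleton, normalize_eq, Multiset.le_count_iff_replicate_le]
    have hI : Ideal.span (Set.range D.dualW) ≤ ptIdeal φ ^ (c + 1) := by
      rw [Ideal.span_le]
      rintro _ ⟨i, rfl⟩
      rw [SetLike.mem_coe, ← Ideal.span_singleton_le_iff_mem,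
        ← hpow _ (by simpa using D.dualW_ne_zero i), ← zerosFin_eq_ptsOf]
      exact hlt i
    have := (hpow _ D.dualIdeal_ne_bot).mpr hI
    omega

theorem card_dualR : Multiset.card D.dualR + 2 * D.genus + D.projDeg
    = D.discP.natDegree * D.embDeg + 1 := by
  rw [dualR, Multiset.card_add, Multiset.card_map, Multiset.card_replicate,
    card_ptsOf D D.dualIdeal_ne_bot]
  have := D.finrank_quotient_dual.2
  have := D.projDeg_mul_le
  omega

/-- The trace-dual data exist. -/
def theDualData : DualData D where
  k := D.discP.natDegree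
  W := D.dualW
  mem := D.dualW_mem
  R := D.dualR
  le_zeros _ := D.dualR_le_zeros
  exact P := by
    classical
    obtain ⟨i, h1, h2⟩ := D.dualR_exact P
    exact ⟨i, h1, by convert h2⟩
  δ := D.discP.natDegree
  Δ := D.discP
  natDegree_Δ := rfl
  Δ_ne_zero := D.discP_ne_zero
  deg_W := D.deg_dualW
  W_ne_zero := D.dualW_ne_zero
  card_R := D.card_dualR
  fiber_dual L _ _ _ _ φ Qs f p := D.eval_dualW L φ Qs f p

/-- The trace-dual family gives a term of `DualData`. -/
theorem nonempty_dualData_aux : Nonempty (DualData D) := ⟨D.theDualData⟩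

end CurveBasis

end Fermat.Agent.MW
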