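import Fermat.Agent.MW.Canonical.Dual

/-!
# Canonical families

The elements `u ^ j * dualW r`, `j < classGaps r`, are `g` independent sections with a base divisor
of degree at least `k * embDeg + 2 - 2 g`; multiplying by quotients of sections moves the base
divisor away from any finite set.
-/

set_option autoImplicit false

noncomputable section

open Polynomial Module

namespace Fermat.Agent.MW

theorem exists_common_part {α ι : Type*} [DecidableEq α] (s : Finset ι) (hs : s.Nonempty)
    (z : ι → Multiset α) :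
    ∃ R : Multiset α, (∀ i ∈ s, R ≤ z i) ∧
      (∀ R₀ : Multiset α, (∀ i ∈ s, R₀ ≤ z i) → R₀ ≤ R) ∧
      ∀ P, ∃ i ∈ s, (z i).count P = R.count P := by
  classical
  induction hs using Finset.Nonempty.cons_induction with
  | singleton a => exact ⟨z a, by simp, fun R₀ h => h a (by simp), fun P => ⟨a, by simp, rfl⟩⟩
  | cons a s ha hs ih =>
    obtain ⟨R, h1, h2, h3⟩ := ih
    refine ⟨z a ∩ R, ?_, ?_, fun P => ?_⟩
    · intro i hi
      rcases Finset.mem_cons.mp hi with rfl | hi
      · exact Multiset.inter_le_left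
      · exact Multiset.inter_le_right.trans (h1 i hi)
    · exact fun R₀ h => Multiset.le_inter (h a (by simp))
        (h2 R₀ fun i hi => h i (Finset.mem_cons_of_mem hi))
    · obtain ⟨i, hi, hiP⟩ := h3 P
      by_cases hle : (z a).count P ≤ R.count P
      · exact ⟨a, by simp, by rw [Multiset.count_inter, min_eq_left hle]⟩
      · exact ⟨i, Finset.mem_cons_of_mem hi, by
          rw [Multiset.count_inter, min_eq_right (by omega), hiP]⟩

variable {K A : Type} [Field K] [IsAlgClosed K] [CommRing A] [Algebra K A] [IsDedekindDomain A]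
  (D : CurveBasis K A)

namespace CurveBasis

theorem span_zeros_ge {ι : Type} {k : ℕ} {W : ι → A} (hW : ∀ i, W i ∈ D.lev k)
    {R : Multiset (Pt K A)} (h : ∀ i, W i ≠ 0 → R ≤ D.zeros k (W i)) :
    ∀ w ∈ Submodule.span K (Set.range W), w ≠ 0 → R ≤ D.zeros k w := by
  obtain ⟨V, hVle, hV, -, -⟩ := D.exists_submodule_through R k
  have hspan : Submodule.span K (Set.range W) ≤ V := Submodule.span_le.mpr <| by
    rintro _ ⟨i, rfl⟩
    exact (hV _ (hW i)).mpr (or_iff_not_imp_left.mpr (h i))
  exact fun w hw hw0 => ((hV w (hVle (hspan hw))).mp (hspan hw)).resolve_left hw0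

variable [CharZero K]

omit [IsAlgClosed K] [IsDedekindDomain A] in
/-- The elements `u ^ j * dualW r`, `j < classGaps r`, are independent. -/
theorem linearIndependent_powMulDual :
    LinearIndependent K fun p : (Σ r : Fin D.projDeg, Fin (D.classGaps r)) =>
      aeval D.uu ((X : K[X]) ^ (p.2 : ℕ)) * D.dualW p.1 := by
  classical
  rw [Fintype.linearIndependent_iff]
  intro c hc p
  obtain ⟨r, j⟩ := p
  have h := congrArg (fun x => D.traceP (D.eps r * x)) hc
  simp only [mul_zero, map_zero, Finset.mul_sum, mul_smul_comm, map_sum, map_smul] at h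
  have hterm : ∀ p : (Σ r : Fin D.projDeg, Fin (D.classGaps r)), D.traceP (D.eps r * (aeval D.uu ((X : K[X]) ^ (p.2 : ℕ)) * D.dualW p.1))
      = (if r = p.1 then (X : K[X]) ^ (p.2 : ℕ) else 0) * D.discP := fun p => by
    rw [mul_left_comm, D.traceP_aeval_mul, D.traceP_eps_mul_dualW]
    split_ifs <;> simp
  simp only [hterm] at h
  rw [Finset.sum_congr rfl (fun p _ => (smul_mul_assoc (c p) _ D.discP).symm),
    ← Finset.sum_mul] at h
  have h' := congrArg (fun q => Polynomial.coeff q (j : ℕ))
    ((mul_eq_zero.mp h).resolve_right D.discP_ne_zero)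
  simp only [finsetSum_coeff, coeff_smul, Polynomial.coeff_zero, smul_eq_mul] at h'
  rw [Finset.sum_eq_single (⟨r, j⟩ : Σ r : Fin D.projDeg, Fin (D.classGaps r))] at h'
  · simpa using h'
  · rintro ⟨s, i⟩ _ hne
    by_cases hrs : r = s
    · subst hrs
      have : (i : ℕ) ≠ (j : ℕ) := fun he => hne (by rw [Fin.ext he])
      simp [coeff_X_pow, Ne.symm this]
    · simp [hrs]
  · simp

/-- A canonical family exists. -/
theorem exists_canonFamily (hg : 0 < D.genus) :
    ∃ F : CanonFamily D, 0 < F.k := by
  classical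
  let ι := Σ r : Fin D.projDeg, Fin (D.classGaps r)
  have hcard : Fintype.card ι = D.genus := by simp [ι, D.sum_classGaps]
  let e : ι ≃ Fin D.genus := Fintype.equivFinOfCardEq hcard
  let V : ι → A := fun p => aeval D.uu ((X : K[X]) ^ (p.2 : ℕ)) * D.dualW p.1
  let W : Fin D.genus → A := fun i => V (e.symm i)
  set δ := D.discP.natDegree
  -- pole orders
  have hdeg : ∀ p : ι, V p ∈ D.lev (D.projDeg * δ - D.projDeg - 1) ∧
      D.projDeg + 1 ≤ D.projDeg * δ := by
    rintro ⟨r, j⟩
    have hr : 0 < (r : ℕ) := by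
      by_contra h
      have h0 : r = ⟨0, D.projDeg_pos⟩ := Fin.ext (by simpa using h)
      have : (j : ℕ) < D.apery r / D.projDeg := j.2
      have hz : D.apery r = 0 :=
        Nat.le_zero.mp (D.apery_le D.zero_notMem (by rw [Nat.zero_mod, h0]))
      rw [hz, Nat.zero_div] at this
      exact absurd this (Nat.not_lt_zero _)
    have h1 := D.deg_dualW r
    have h2 : D.projDeg * ((j : ℕ) + 1) ≤ D.projDeg * D.classGaps r :=
      Nat.mul_le_mul_left _ j.2
    have h3 := D.apery_eq r
    rw [show D.discP.natDegree = δ from rfl] at h1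
    rw [Nat.mul_succ] at h2
    refine ⟨D.lev_mono ?_ (D.aeval_mul_dualW_top _ r).1, by omega⟩
    rw [natDegree_X_pow]
    show D.projDeg * (j : ℕ) + D.deg (D.dualW r) ≤ _
    omega
  have hindep : LinearIndependent K W :=
    D.linearIndependent_powMulDual.comp _ e.symm.injective
  have hne : ∀ i, W i ≠ 0 := fun i => hindep.ne_zero i
  set N := (δ + 1) * D.embDeg
  have hbN : D.projDeg * δ ≤ N := le_trans D.projDeg_mul_le (Nat.mul_le_mul_right _ (Nat.le_succ δ))
  have hWmem : ∀ i, W i ∈ D.lev N := fun i => D.lev_mono (by omega) (hdeg _).1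
  have : Nonempty (Fin D.genus) := ⟨⟨0, hg⟩⟩
  obtain ⟨R, h1, h2, h3⟩ := exists_common_part (Finset.univ : Finset (Fin D.genus))
    Finset.univ_nonempty fun i => D.zeros N (W i)
  let R₀ : Multiset (Pt K A) := (ptsOf (K := K) (Ideal.span (Set.range D.dualW))).map some +
    Multiset.replicate (N - (D.projDeg * δ - D.projDeg - 1)) none
  have hR₀ : R₀ ≤ R := h2 R₀ fun i _ => by
    refine add_le_add (Multiset.map_le_map ?_) ((Multiset.replicate_le_replicate _).mpr ?_)
    · rw [zerosFin_eq_ptsOf]
      refine ptsOf_mono D (by simpa using hne i) ((Ideal.span_singleton_le_iff_mem _).mpr ?_)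
      exact Ideal.mul_mem_left _ _ (Ideal.subset_span ⟨_, rfl⟩)
    · exact Nat.sub_le_sub_left (D.deg_le_of_mem_lev (hdeg _).1) _
  have hb1 := (hdeg (e.symm ⟨0, hg⟩)).2
  refine ⟨{ k := δ + 1, W := W, mem := hWmem, R := R, indep := hindep,
            le_zeros := D.span_zeros_ge hWmem fun i _ => h1 i (Finset.mem_univ i)
            exact := fun P => ?_, card_R := ?_ }, Nat.succ_pos _⟩
  · obtain ⟨i, -, hi⟩ := h3 P
    exact ⟨i, hne i, by convert hi⟩
  · have h4 : Multiset.card R₀ = finrank K (A ⧸ Ideal.span (Set.range D.dualW))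
        + (N - (D.projDeg * δ - D.projDeg - 1)) := by
      rw [Multiset.card_add, Multiset.card_map, Multiset.card_replicate,
        card_ptsOf D D.dualIdeal_ne_bot]
    have h5 := Multiset.card_le_card hR₀
    have h6 := D.finrank_quotient_dual.2
    rw [show D.discP.natDegree = δ from rfl] at h6
    show N + 2 ≤ Multiset.card R + 2 * D.genus
    omega

omit [CharZero K] in
/-- A canonical family can be moved in its class so that its base divisor avoids a finite set. -/
theorem translate (F : CanonFamily D) (hk : 0 < F.k) (_hg : 0 < D.genus) (S : Finset (Pt K A)) :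
    ∃ (F' : CanonFamily D) (s t : A) (n : ℕ) (J : Multiset (Pt K A)),
      F'.k = F.k ∧ (∀ P ∈ F'.R, P ∉ S) ∧ s ≠ 0 ∧ t ≠ 0 ∧ s ∈ D.lev n ∧ t ∈ D.lev n ∧
      D.zeros n s = F.R + J ∧ D.zeros n t = J + F'.R ∧ ∀ i, F.W i * t = s * F'.W i := by
  classical
  have hc : 2 * D.genus ≤ Multiset.card F.R := by
    have h1 := F.card_R
    have h2 : D.embDeg ≤ F.k * D.embDeg := Nat.le_mul_of_pos_left _ hk
    simp only [embDeg] at h2 ⊢ h1
    omega
  set c := Multiset.card F.R
  set n := c + 2 * D.genus
  obtain ⟨s, hsn, hs0, J, hsJ, -⟩ := D.exists_section_avoid F.R (le_refl n) ∅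
  have hJ : Multiset.card J = 2 * D.genus := by
    have h := congrArg Multiset.card hsJ
    rw [D.card_zeros hs0 hsn, Multiset.card_add] at h
    omega
  obtain ⟨t, htn, ht0, R', htR, havoid⟩ :=
    D.exists_section_avoid J (n := n) (by omega) S
  have hWne : ∀ i, F.W i ≠ 0 := fun i => F.indep.ne_zero i
  set M := F.k * D.embDeg
  have hex : ∀ i, ∃ w ∈ D.lev M, F.W i * t = s * w := fun i => by
    refine D.exists_eq_mul_of_zeros_le hs0 (mul_ne_zero (hWne i) ht0) hsn
      (add_comm M n ▸ D.mul_mem_lev (F.mem i) htn) ?_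
    rw [add_comm n M, D.zeros_mul (hWne i) ht0 (F.mem i) htn, hsJ, htR]
    exact add_le_add (F.le_zeros _ (Submodule.subset_span ⟨i, rfl⟩) (hWne i))
      (Multiset.le_add_right _ _)
  choose W' hW'mem hW' using hex
  have hW'ne : ∀ i, W' i ≠ 0 := fun i h => by
    have := hW' i
    rw [h, mul_zero] at this
    exact mul_ne_zero (hWne i) ht0 this
  have hz : ∀ i, D.zeros M (F.W i) + R' = F.R + D.zeros M (W' i) := fun i => by
    have h : D.zeros (M + n) (F.W i * t) = D.zeros (M + n) (s * W' i) := by rw [hW' i]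
    rw [D.zeros_mul (hWne i) ht0 (F.mem i) htn, add_comm M n,
      D.zeros_mul hs0 (hW'ne i) hsn (hW'mem i), hsJ, htR, ← add_assoc, add_right_comm,
      add_right_comm F.R] at h
    exact add_right_cancel h
  have hcount : ∀ i P, (D.zeros M (F.W i)).count P + R'.count P
      = F.R.count P + (D.zeros M (W' i)).count P := fun i P => by
    rw [← Multiset.count_add, ← Multiset.count_add, hz i]
  have hR'le : ∀ i, R' ≤ D.zeros M (W' i) := fun i => Multiset.le_iff_count.mpr fun P => by
    have := hcount i P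
    have : F.R.count P ≤ (D.zeros M (F.W i)).count P := Multiset.le_iff_count.mp
      (F.le_zeros _ (Submodule.subset_span ⟨i, rfl⟩) (hWne i)) P
    omega
  have hindep : LinearIndependent K W' := by
    rw [Fintype.linearIndependent_iff]
    intro a ha
    refine Fintype.linearIndependent_iff.mp F.indep a ((mul_eq_zero.mp ?_).resolve_right ht0)
    rw [Finset.sum_mul]
    simp only [smul_mul_assoc, hW', ← mul_smul_comm, ← Finset.mul_sum, ha, mul_zero]
  refine ⟨{ k := F.k, W := W', mem := hW'mem, R := R', indep := hindep,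
            le_zeros := D.span_zeros_ge hW'mem fun i _ => hR'le i
            exact := fun P => ?_, card_R := ?_ },
    s, t, n, J, rfl, havoid, hs0, ht0, hsn, htn, hsJ, htR, hW'⟩
  · obtain ⟨i, -, hi⟩ := F.exact P
    refine ⟨i, hW'ne i, ?_⟩
    have h1 := hcount i P
    have h2 : (D.zeros M (F.W i)).count P = F.R.count P := by convert hi
    have h3 : (D.zeros M (W' i)).count P = R'.count P := by omega
    convert h3
  · have h := congrArg Multiset.card htR
    rw [D.card_zeros ht0 htn, Multiset.card_add] at h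
    have h1 := F.card_R
    show M + 2 ≤ Multiset.card R' + 2 * D.genus
    omega

/-- Pairwise disjoint base divisors. -/
theorem exists_disjoint_families (hg : 0 < D.genus) :
    ∀ m : ℕ, ∃ Fs : Fin m → CanonFamily D, ∀ i j, i ≠ j → ∀ P ∈ (Fs i).R, P ∉ (Fs j).R := by
  classical
  intro m
  induction m with
  | zero => exact ⟨Fin.elim0, fun i => i.elim0⟩
  | succ m ih =>
    obtain ⟨Fs, hFs⟩ := ih
    obtain ⟨F, hk⟩ := D.exists_canonFamily hg
    obtain ⟨F', -, -, -, -, -, hav, -⟩ :=
      D.translate F hk hg (Finset.univ.biUnion fun i => (Fs i).R.toFinset)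
    refine ⟨Fin.snoc Fs F', fun i j hij => ?_⟩
    induction i using Fin.lastCases with
    | last =>
      induction j using Fin.lastCases with
      | last => exact absurd rfl hij
      | cast j =>
        intro P hP hP'
        rw [Fin.snoc_last] at hP
        rw [Fin.snoc_castSucc] at hP'
        exact hav P hP (Finset.mem_biUnion.mpr ⟨j, Finset.mem_univ _, Multiset.mem_toFinset.mpr hP'⟩)
    | cast i =>
      induction j using Fin.lastCases with
      | last =>
        intro P hP hP'
        rw [Fin.snoc_castSucc] at hP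
        rw [Fin.snoc_last] at hP'
        exact hav P hP' (Finset.mem_biUnion.mpr ⟨i, Finset.mem_univ _, Multiset.mem_toFinset.mpr hP⟩)
      | cast j =>
        intro P hP
        rw [Fin.snoc_castSucc] at hP ⊢
        exact hFs i j (fun h => hij (by rw [h])) P hP

/-- Finitely many canonical families suffice to avoid any divisor of degree at most `genus`. -/
theorem exists_canonFamilies_aux (hg : 0 < D.genus) :
    ∃ Fs : Finset (CanonFamily D), ∀ E : Multiset (Pt K A), Multiset.card E ≤ D.genus →
      ∃ F ∈ Fs, ∀ P ∈ E, P ∉ F.R := by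
  classical
  obtain ⟨Fs, hFs⟩ := D.exists_disjoint_families hg (D.genus + 1)
  refine ⟨Finset.univ.image Fs, fun E hE => ?_⟩
  by_contra hh
  push Not at hh
  have h : ∀ i, ∃ P ∈ E, P ∈ (Fs i).R :=
    fun i => hh (Fs i) (Finset.mem_image_of_mem _ (Finset.mem_univ i))
  choose p hpE hpR using h
  have := Finset.card_le_card_of_injOn p (s := (Finset.univ : Finset (Fin (D.genus + 1))))
    (t := E.toFinset) (fun i _ => Multiset.mem_toFinset.mpr (hpE i))
    (fun i _ j _ h => by
      by_contra hne
      exact hFs i j hne _ (hpR i) (h ▸ hpR j))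
  rw [Finset.card_univ, Fintype.card_fin] at this
  have := E.toFinset_card_le
  omega

omit [CharZero K] in
/-- The values of a canonical family at a good divisor off its base points have nonzero
determinant. -/
theorem det_ne_zero_of_good_aux (F : CanonFamily D) (P : Fin D.genus → Pt K A)
    (hgood : D.Good (Finset.univ.val.map P)) (hR : ∀ j, P j ∉ F.R) :
    Matrix.det (Matrix.of fun j i => D.evSec (F.k * D.embDeg) (P j) (F.W i)) ≠ 0 := by
  classical
  intro hdet
  obtain ⟨c, hc0, hc⟩ := Matrix.exists_mulVec_eq_zero_iff.mpr hdet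
  set M := F.k * D.embDeg
  set E := Finset.univ.val.map P
  set w := ∑ i, c i • F.W i
  have hw0 : w ≠ 0 := fun h => hc0 (funext fun i => Fintype.linearIndependent_iff.mp F.indep c h i)
  have hwmem : w ∈ D.lev M := Submodule.sum_mem _ fun i _ => Submodule.smul_mem _ _ (F.mem i)
  have hwspan : w ∈ Submodule.span K (Set.range F.W) :=
    Submodule.sum_mem _ fun i _ => Submodule.smul_mem _ _ (Submodule.subset_span ⟨i, rfl⟩)
  obtain ⟨hnd, hcardE, -, huniq⟩ := hgood
  have hwP : ∀ j, P j ∈ D.zeros M w := fun j => by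
    rw [← D.evSec_eq_zero_iff hw0 hwmem]
    simp only [w, map_sum, map_smul, smul_eq_mul]
    refine Eq.trans ?_ (congrFun hc j)
    exact Finset.sum_congr rfl fun i _ => mul_comm _ _
  have hle : F.R + E ≤ D.zeros M w := Multiset.le_iff_count.mpr fun Q => by
    rw [Multiset.count_add]
    by_cases hQ : Q ∈ E
    · obtain ⟨j, -, rfl⟩ := Multiset.mem_map.mp hQ
      rw [Multiset.count_eq_zero_of_notMem (hR j), Multiset.count_eq_one_of_mem hnd hQ]
      exact Multiset.one_le_count_iff_mem.mpr (hwP j)
    · rw [Multiset.count_eq_zero_of_notMem hQ, add_zero]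
      exact Multiset.le_iff_count.mp (F.le_zeros w hwspan hw0) Q
  obtain ⟨Z, hZ⟩ := Multiset.le_iff_exists_add.mp hle
  have hZcard : Multiset.card Z + 2 ≤ D.genus := by
    have h := congrArg Multiset.card hZ
    rw [D.card_zeros hw0 hwmem, Multiset.card_add, Multiset.card_add, hcardE] at h
    have := F.card_R
    omega
  have hg : 0 < D.genus := by omega
  have hk : 0 < F.k := by
    by_contra hk
    have h := congrArg Multiset.card hZ
    rw [D.card_zeros hw0 hwmem, Multiset.card_add, Multiset.card_add, hcardE] at h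
    have hM : M = 0 := by simp [M, Nat.eq_zero_of_not_pos hk]
    omega
  obtain ⟨F', s, t, n, J, hk', hav, hs0, ht0, hsn, htn, hsJ, htR, hrel⟩ :=
    D.translate F hk hg (Z.toFinset ∪ E.toFinset)
  set w' := ∑ i, c i • F'.W i
  have hww : w * t = s * w' := by
    simp only [w, w', Finset.sum_mul, Finset.mul_sum, smul_mul_assoc, mul_smul_comm, hrel]
  have hw'0 : w' ≠ 0 := fun h => mul_ne_zero hw0 ht0 (by rw [hww, h, mul_zero])
  have hFmem : ∀ i, F'.W i ∈ D.lev M := fun i => by
    have := F'.mem i; rwa [hk'] at this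
  have hw'mem : w' ∈ D.lev M := Submodule.sum_mem _ fun i _ => Submodule.smul_mem _ _ (hFmem i)
  have hzw' : D.zeros M w' = F'.R + E + Z := by
    have h : D.zeros (M + n) (w * t) = D.zeros (M + n) (s * w') := by rw [hww]
    rw [D.zeros_mul hw0 ht0 hwmem htn, add_comm M n, D.zeros_mul hs0 hw'0 hsn hw'mem, hsJ, htR,
      hZ] at h
    refine add_left_cancel (a := F.R + J) ?_
    rw [← h]
    abel
  obtain ⟨V, hVle, hV, hVdim, -⟩ := D.exists_submodule_through Z M
  have : FiniteDimensional K (D.lev M) :=
    FiniteDimensional.span_of_finite K (Set.toFinite _ |>.image _)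
  set U := Submodule.span K (Set.range F'.W)
  have : FiniteDimensional K U := FiniteDimensional.span_of_finite K (Set.finite_range _)
  have : FiniteDimensional K V := Submodule.finiteDimensional_of_le hVle
  have hUle : U ≤ D.lev M := Submodule.span_le.mpr (by rintro _ ⟨i, rfl⟩; exact hFmem i)
  have hUdim : finrank K U = D.genus := by
    rw [finrank_span_eq_card F'.indep, Fintype.card_fin]
  have hinf : 2 ≤ finrank K (U ⊓ V : Submodule K A) := by
    have h1 := Submodule.finrank_sup_add_finrank_inf_eq U V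
    have h2 := Submodule.finrank_mono (sup_le hUle hVle)
    omega
  have hnle : ¬ (U ⊓ V) ≤ K ∙ w' := fun h => by
    have := Submodule.finrank_mono h
    rw [finrank_span_singleton hw'0] at this
    omega
  obtain ⟨w₁, hw₁, hw₁'⟩ := SetLike.not_le_iff_exists.mp hnle
  have hw₁0 : w₁ ≠ 0 := fun h => hw₁' (h ▸ zero_mem _)
  have hR₁ : F'.R ≤ D.zeros M w₁ := by
    have := F'.le_zeros w₁ hw₁.1 hw₁0
    rwa [hk'] at this
  have hZ₁ : Z ≤ D.zeros M w₁ := ((hV w₁ (hUle hw₁.1)).mp hw₁.2).resolve_left hw₁0
  have hRZ : F'.R + Z ≤ D.zeros M w₁ := Multiset.le_iff_count.mpr fun Q => by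
    rw [Multiset.count_add]
    by_cases hQ : Q ∈ F'.R
    · rw [Multiset.count_eq_zero_of_notMem (s := Z) fun h =>
        hav Q hQ (Finset.mem_union_left _ (Multiset.mem_toFinset.mpr h)), add_zero]
      exact Multiset.le_iff_count.mp hR₁ Q
    · rw [Multiset.count_eq_zero_of_notMem hQ, zero_add]
      exact Multiset.le_iff_count.mp hZ₁ Q
  obtain ⟨E', hE'⟩ := Multiset.le_iff_exists_add.mp hRZ
  have hcl : cl E' = cl E := by
    have h1 : cl (F'.R + Z + E') = 0 := hE' ▸ D.cl_zeros hw₁0
    have h2 : cl (F'.R + E + Z) = 0 := hzw' ▸ D.cl_zeros hw'0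
    rw [cl_add, cl_add] at h1 h2
    rw [← sub_eq_zero]
    linear_combination (norm := abel) h1 - h2
  have hcardE' : Multiset.card E' = D.genus := by
    have h1 := congrArg Multiset.card hE'
    have h2 := congrArg Multiset.card hzw'
    rw [D.card_zeros hw₁0 (hUle hw₁.1), Multiset.card_add, Multiset.card_add] at h1
    rw [D.card_zeros hw'0 hw'mem, Multiset.card_add, Multiset.card_add, hcardE] at h2
    omega
  have hEq := huniq E' hcardE'.le hcl
  obtain ⟨d, -, hd⟩ := D.exists_smul_eq_of_zeros_eq hw'0 hw₁0 hw'mem (hUle hw₁.1)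
    (by rw [hzw', hE', hEq, add_right_comm])
  exact hw₁' (Submodule.mem_span_singleton.mpr ⟨d, hd.symm⟩)

end CurveBasis

end Fermat.Agent.MW
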