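import Fermat.Agent.MW.Core.API
import Fermat.Agent.MW.Core.Projection
import Mathlib.Algebra.Polynomial.BigOperators

/-!
# The algebra as a free module over the polynomial ring in the projection

With `u = e projDeg`, the elements `u ^ j * e (apery r)` have pairwise distinct pole orders
`projDeg * j + apery r`, so `A` is free on `e (apery r)` over `K[u]`.
-/

set_option autoImplicit false

noncomputable section

open scoped TensorProduct
open Polynomial Module

namespace Fermat.Agent.MW

variable {K A : Type} [Field K] [CommRing A] [Algebra K A] (D : CurveBasis K A)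

namespace CurveBasis

/-- The projection function. -/
abbrev uu : A := D.e D.projDeg

/-- The basis of `A` over `K[u]`. -/
abbrev eps (r : Fin D.projDeg) : A := D.e (D.apery r)

/-- The pole order of `u ^ j * eps r`. -/
abbrev monDeg (r : Fin D.projDeg) (j : ℕ) : ℕ := D.projDeg * j + D.apery r

/-- The pole order of `u ^ j * eps r` is not a gap. -/
theorem monDeg_notMem (r : Fin D.projDeg) (j : ℕ) : D.monDeg r j ∉ D.gaps := by
  induction j with
  | zero => simpa [monDeg] using D.apery_notMem r
  | succ j ih =>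
    have := D.add_notMem _ _ D.projDeg_notMem ih
    rwa [show D.projDeg + D.monDeg r j = D.monDeg r (j + 1) by simp only [monDeg]; ring] at this

/-- The pole order of `u ^ j * eps r` is congruent to `r` modulo `projDeg`. -/
theorem monDeg_mod (r : Fin D.projDeg) (j : ℕ) : D.monDeg r j % D.projDeg = r := by
  rw [monDeg, Nat.mul_add_mod, D.apery_mod]

theorem monDeg_inj {r s : Fin D.projDeg} {i j : ℕ} (h : D.monDeg r i = D.monDeg s j) :
    r = s ∧ i = j := by
  have hrs : r = s := Fin.ext (by rw [← D.monDeg_mod r i, h, D.monDeg_mod])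
  subst hrs
  exact ⟨rfl, Nat.eq_of_mul_eq_mul_left D.projDeg_pos (Nat.add_right_cancel h)⟩

/-- Every nongap is the pole order of some `u ^ j * eps r`. -/
theorem exists_monDeg_eq {n : ℕ} (hn : n ∉ D.gaps) : ∃ r j, D.monDeg r j = n := by
  let r : Fin D.projDeg := ⟨n % D.projDeg, Nat.mod_lt _ D.projDeg_pos⟩
  have h1 := D.apery_le hn (r := r) rfl
  have h2 : (n - D.apery r) % D.projDeg = 0 := by
    refine Nat.sub_mod_eq_zero_of_mod_eq ?_
    rw [D.apery_mod]
  exact ⟨r, (n - D.apery r) / D.projDeg, by
    rw [monDeg, Nat.mul_div_cancel' (Nat.dvd_of_mod_eq_zero h2), Nat.sub_add_cancel h1]⟩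

/-! ### Leading coefficients -/

/-- Coefficients above the filtration degree vanish. -/
theorem coeff_eq_zero_of_mem {f : A} {m n : ℕ} (h : f ∈ D.lev n) (hm : n < m) :
    D.coeff m f = 0 :=
  D.mem_lev_iff.mp h m hm

/-- A function of pole order at most `0` is a constant. -/
theorem eq_zero_of_mem_lev_zero {f : A} (h : f ∈ D.lev 0) : f = D.coeff 0 f • 1 := by
  refine Submodule.span_induction ?_ (by simp)
    (fun x y _ _ hx hy => by rw [map_add, add_smul, ← hx, ← hy])
    (fun c x _ hx => by rw [map_smul, smul_eq_mul, mul_smul, ← hx]) h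
  rintro _ ⟨i, hi, rfl⟩
  obtain rfl : i = 0 := Nat.le_zero.mp hi
  rw [D.coeff_e D.zero_notMem, if_pos rfl, one_smul, D.e_zero]

/-- Leading coefficients multiply. -/
theorem coeff_mul_top {f g : A} {m n : ℕ} (hf : f ∈ D.lev m) (hg : g ∈ D.lev n) :
    D.coeff (m + n) (f * g) = D.coeff m f * D.coeff n g := by
  refine Submodule.span_induction ?_ (by simp)
    (fun x y _ _ hx hy => by rw [add_mul, map_add, map_add, hx, hy, add_mul])
    (fun c x _ hx => by rw [smul_mul_assoc, map_smul, map_smul, hx, smul_eq_mul, smul_eq_mul,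
      mul_assoc]) hf
  rintro _ ⟨i, hi, rfl⟩
  refine Submodule.span_induction ?_ (by simp)
    (fun x y _ _ hx hy => by rw [mul_add, map_add, map_add, hx, hy, mul_add])
    (fun c x _ hx => by rw [mul_smul_comm, map_smul, map_smul, hx, smul_eq_mul, smul_eq_mul,
      mul_left_comm]) hg
  rintro _ ⟨k, hk, rfl⟩
  rw [Set.mem_Iic] at hi hk
  by_cases hig : i ∈ D.gaps
  · simp [D.e_gap hig]
  by_cases hkg : k ∈ D.gaps
  · simp [D.e_gap hkg]
  have hprod : D.e i * D.e k ∈ D.lev (i + k) :=
    D.mul_mem_lev (D.e_mem_lev le_rfl) (D.e_mem_lev le_rfl)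
  rw [D.coeff_e hig, D.coeff_e hkg]
  by_cases htop : i = m ∧ k = n
  · obtain ⟨rfl, rfl⟩ := htop
    rw [if_pos rfl, if_pos rfl, one_mul]
    have hspan : D.coeff (i + k) (D.e i * D.e k - D.e (i + k)) = 0 := by
      refine Submodule.span_induction ?_ (by simp)
        (fun x y _ _ hx hy => by rw [map_add, hx, hy, add_zero])
        (fun c x _ hx => by rw [map_smul, hx, smul_zero]) (D.e_mul i k hig hkg)
      rintro _ ⟨j, hj, rfl⟩
      exact D.coeff_eq_zero_of_mem (D.e_mem_lev le_rfl) hj
    rwa [map_sub, D.coeff_e (D.add_notMem _ _ hig hkg), if_pos rfl, sub_eq_zero] at hspan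
  · rw [D.coeff_eq_zero_of_mem hprod (by omega)]
    by_cases him : m = i
    · rw [if_neg (show ¬ n = k from fun h => htop ⟨him.symm, h.symm⟩), mul_zero]
    · rw [if_neg him, zero_mul]

theorem pow_uu_mul_eps (r : Fin D.projDeg) (j : ℕ) :
    D.uu ^ j * D.eps r ∈ D.lev (D.monDeg r j) ∧
      D.coeff (D.monDeg r j) (D.uu ^ j * D.eps r) = 1 := by
  induction j with
  | zero =>
    simp only [monDeg, mul_zero, zero_add, pow_zero, one_mul]
    exact ⟨D.e_mem_lev le_rfl, by rw [D.coeff_e (D.apery_notMem r), if_pos rfl]⟩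
  | succ j ih =>
    rw [show D.monDeg r (j + 1) = D.projDeg + D.monDeg r j by simp only [monDeg]; ring, pow_succ',
      mul_assoc]
    exact ⟨D.mul_mem_lev (D.e_mem_lev le_rfl) ih.1, by
      rw [D.coeff_mul_top (D.e_mem_lev le_rfl) ih.1, ih.2, D.coeff_e D.projDeg_notMem,
        if_pos rfl, one_mul]⟩

/-! ### Coordinates over `K[u]` -/

/-- `c ↦ ∑ c_r(u) eps_r`. -/
def polyComb : (Fin D.projDeg → K[X]) →ₗ[K] A where
  toFun c := ∑ r, aeval D.uu (c r) * D.eps r
  map_add' c d := by
    simp only [Pi.add_apply, map_add, add_mul, Finset.sum_add_distrib]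
  map_smul' a c := by
    simp only [Pi.smul_apply, map_smul, smul_mul_assoc, Finset.smul_sum, RingHom.id_apply]

/-- Unfolding of `polyComb`. -/
theorem polyComb_apply (c : Fin D.projDeg → K[X]) :
    D.polyComb c = ∑ r, aeval D.uu (c r) * D.eps r := rfl

/-- All terms of `c` have pole order at most `N`. -/
def Bounded (c : Fin D.projDeg → K[X]) (N : ℕ) : Prop :=
  ∀ r j, N < D.monDeg r j → (c r).coeff j = 0

/-- A bounded combination lies in `lev N`, with top coefficient read off from the polynomials. -/
theorem bounded_mem_top {c : Fin D.projDeg → K[X]} {N : ℕ} (h : D.Bounded c N) :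
    D.polyComb c ∈ D.lev N ∧
      ∀ r j, D.monDeg r j = N → D.coeff N (D.polyComb c) = (c r).coeff j := by
  classical
  have hexp : D.polyComb c =
      ∑ r, ∑ j ∈ (c r).support, (c r).coeff j • (D.uu ^ j * D.eps r) := by
    rw [polyComb_apply]
    refine Finset.sum_congr rfl fun r _ => ?_
    rw [aeval_def, eval₂_eq_sum, Polynomial.sum_def, Finset.sum_mul]
    exact Finset.sum_congr rfl fun j _ => by rw [Algebra.smul_def, mul_assoc]
  have hle : ∀ r, ∀ j ∈ (c r).support, D.monDeg r j ≤ N := fun r j hj => by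
    by_contra hh
    exact Polynomial.mem_support_iff.mp hj (h r j (not_le.mp hh))
  refine ⟨hexp ▸ Submodule.sum_mem _ fun r _ => Submodule.sum_mem _ fun j hj =>
    Submodule.smul_mem _ _ (D.lev_mono (hle r j hj) (D.pow_uu_mul_eps r j).1), fun r₀ j₀ h0 => ?_⟩
  simp only [hexp, map_sum, map_smul, smul_eq_mul]
  have hother : ∀ r, ∀ j ∈ (c r).support, ¬(r = r₀ ∧ j = j₀) →
      (c r).coeff j * D.coeff N (D.uu ^ j * D.eps r) = 0 := fun r j hj hne => by
    rw [D.coeff_eq_zero_of_mem (D.pow_uu_mul_eps r j).1
      (lt_of_le_of_ne (hle r j hj) fun he => hne (D.monDeg_inj (he.trans h0.symm))), mul_zero]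
  rw [Finset.sum_eq_single r₀ (fun r _ hr => Finset.sum_eq_zero fun j hj =>
      hother r j hj fun h => hr h.1) (fun h => absurd (Finset.mem_univ r₀) h),
    Finset.sum_eq_single j₀ (fun j hj hne => hother r₀ j hj fun h => hne h.2) (fun hj => by
      rw [Polynomial.notMem_support_iff.mp hj, zero_mul]), ← h0,
    (D.pow_uu_mul_eps r₀ j₀).2, mul_one]

theorem exists_polyComb_eq : ∀ (N : ℕ) (f : A), f ∈ D.lev N →
    ∃ c, D.Bounded c N ∧ D.polyComb c = f := by
  intro N
  induction N using Nat.strong_induction_on with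
  | _ N ih =>
    intro f hf
    have key : ∀ g : A, g ∈ D.lev N → D.coeff N g = 0 →
        ∃ c, D.Bounded c N ∧ D.polyComb c = g := by
      intro g hg h0
      rcases Nat.eq_zero_or_pos N with rfl | hN
      · refine ⟨0, fun _ _ _ => by simp, ?_⟩
        rw [map_zero, D.eq_zero_of_mem_lev_zero hg, h0, zero_smul]
      · obtain ⟨c, hc, hcg⟩ := ih (N - 1) (by omega) g (D.mem_lev_iff.mpr fun m hm => by
          rcases eq_or_lt_of_le (show N ≤ m by omega) with rfl | h
          · exact h0
          · exact D.coeff_eq_zero_of_mem hg h)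
        exact ⟨c, fun r j h => hc r j (by omega), hcg⟩
    by_cases hN : N ∈ D.gaps
    · exact key f hf (D.coeff_gap hN f)
    obtain ⟨r, j, hrj⟩ := D.exists_monDeg_eq hN
    set m : Fin D.projDeg → K[X] := Pi.single r (monomial j (D.coeff N f)) with hm
    have hmb : D.Bounded m N := fun s i hsi => by
      rcases eq_or_ne s r with rfl | hs
      · rw [hm, Pi.single_eq_same, coeff_monomial, if_neg (fun h => by subst h; omega)]
      · rw [hm, Pi.single_eq_of_ne hs]; simp
    obtain ⟨h1, h2⟩ := D.bounded_mem_top hmb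
    obtain ⟨c, hc, hcg⟩ := key (f - D.polyComb m) (sub_mem hf h1) (by
      rw [map_sub, h2 r j hrj, hm, Pi.single_eq_same, coeff_monomial, if_pos rfl, sub_self])
    exact ⟨c + m, fun s i h => by simp [hc s i h, hmb s i h],
      by rw [map_add, hcg, sub_add_cancel]⟩

/-- The elements `eps r` are linearly independent over `K[u]`. -/
theorem polyComb_injective : Function.Injective D.polyComb := by
  classical
  rw [injective_iff_map_eq_zero]
  intro c hc
  by_contra hne
  let S : Finset (Σ _ : Fin D.projDeg, ℕ) := Finset.univ.sigma fun r => (c r).support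
  have hS : S.Nonempty := by
    obtain ⟨r, hr⟩ := Function.ne_iff.mp hne
    obtain ⟨j, hj⟩ := Polynomial.support_nonempty.mpr hr
    exact ⟨⟨r, j⟩, by simp [S, Polynomial.mem_support_iff.mp hj]⟩
  obtain ⟨p, hp, hmax⟩ := S.exists_max_image (fun p => D.monDeg p.1 p.2) hS
  have hb : D.Bounded c (D.monDeg p.1 p.2) := fun r j h => by
    by_contra hh
    have := hmax ⟨r, j⟩ (by simp [S, hh])
    simp only at this
    omega
  have := (D.bounded_mem_top hb).2 p.1 p.2 rfl
  rw [hc, map_zero] at this
  simp [S] at hp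
  exact hp this.symm

theorem polyComb_bijective : Function.Bijective D.polyComb :=
  ⟨D.polyComb_injective, fun f => by
    obtain ⟨c, -, hc⟩ := D.exists_polyComb_eq _ f (D.mem_lev_deg f)
    exact ⟨c, hc⟩⟩

/-- Coordinates over `K[u]`. -/
def coordP : A ≃ₗ[K] (Fin D.projDeg → K[X]) :=
  (LinearEquiv.ofBijective D.polyComb D.polyComb_bijective).symm

/-- A function is the combination of its coordinates over `K[u]`. -/
theorem polyComb_coordP (f : A) : D.polyComb (D.coordP f) = f :=
  (LinearEquiv.ofBijective D.polyComb D.polyComb_bijective).apply_symm_apply f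

/-- Coordinates over `K[u]` are unique. -/
theorem coordP_eq {f : A} {c : Fin D.projDeg → K[X]} (h : D.polyComb c = f) : D.coordP f = c :=
  D.polyComb_injective (by rw [polyComb_coordP, h])

theorem polyComb_mul (p : K[X]) (c : Fin D.projDeg → K[X]) :
    D.polyComb (fun r => p * c r) = aeval D.uu p * D.polyComb c := by
  simp only [polyComb_apply, map_mul, Finset.mul_sum, mul_assoc]

/-- Coordinates over `K[u]` are `K[u]`-linear. -/
theorem coordP_aeval_mul (p : K[X]) (f : A) (r : Fin D.projDeg) :
    D.coordP (aeval D.uu p * f) r = p * D.coordP f r := by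
  rw [D.coordP_eq (c := fun r => p * D.coordP f r) (by rw [polyComb_mul, polyComb_coordP])]

/-- The coordinates of a function in `lev N` are bounded by `N`. -/
theorem coordP_bounded {f : A} {N : ℕ} (hf : f ∈ D.lev N) : D.Bounded (D.coordP f) N := by
  obtain ⟨c, hc, hcf⟩ := D.exists_polyComb_eq N f hf
  rwa [D.coordP_eq hcf]

/-- The top coefficient of a coordinate is the top coefficient of the function. -/
theorem coeff_coordP {f : A} {r : Fin D.projDeg} {j : ℕ} (hf : f ∈ D.lev (D.monDeg r j)) :
    (D.coordP f r).coeff j = D.coeff (D.monDeg r j) f := by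
  rw [← (D.bounded_mem_top (D.coordP_bounded hf)).2 r j rfl, polyComb_coordP]

/-- The coordinates of the basis over `K[u]` form the standard basis. -/
theorem coordP_eps (r s : Fin D.projDeg) : D.coordP (D.eps r) s = if s = r then 1 else 0 := by
  classical
  rw [D.coordP_eq (c := Pi.single r 1)]
  · rw [Pi.single_apply]
  · rw [polyComb_apply, Finset.sum_eq_single r] <;> simp +contextual

/-- Coordinates over `K[u]` commute with base change. -/
theorem coordP_baseChange (L : Type) [Field L] [Algebra K L] (f : A) :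
    (D.baseChange L).coordP ((1 : L) ⊗ₜ f) = fun r => (D.coordP f r).map (algebraMap K L) := by
  refine (D.baseChange L).coordP_eq ?_
  have key : ∀ p : K[X], aeval (D.baseChange L).uu (p.map (algebraMap K L))
      = (1 : L) ⊗ₜ[K] (aeval D.uu p) := fun p => by
    rw [aeval_map_algebraMap, uu, D.baseChange_e L]
    exact (aeval_algHom_apply (Algebra.TensorProduct.includeRight (R := K) (A := L)) D.uu p)
  conv_rhs => rw [← D.polyComb_coordP f, polyComb_apply, TensorProduct.tmul_sum]
  show ∑ r : Fin D.projDeg, aeval (D.baseChange L).uu ((D.coordP f r).map (algebraMap K L))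
      * (D.baseChange L).e (D.apery r) = _
  refine Finset.sum_congr rfl fun r _ => ?_
  rw [key, D.baseChange_e L, Algebra.TensorProduct.tmul_mul_tmul, mul_one]

end CurveBasis

end Fermat.Agent.MW
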