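import Fermat.Agent.MW.Canonical.PolyBasis
import Mathlib.LinearAlgebra.Matrix.Adjugate
import Mathlib.LinearAlgebra.Matrix.ToLinearEquiv

/-!
# The trace form of the free `K[u]`-module and its dual family

The trace of `x` is read off the coordinates of `x * eps j`; on leading terms it is `projDeg` times
the leading coefficient, so in characteristic zero the form is nondegenerate and the dual family
`polyComb (adjugate column)` has pole orders `projDeg * δ - apery r`.
-/

set_option autoImplicit false

noncomputable section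

open Polynomial Module

namespace Fermat.Agent.MW

variable {K A : Type} [Field K] [CommRing A] [Algebra K A] (D : CurveBasis K A)

namespace CurveBasis

/-- The trace to `K[u]`. -/
def traceP : A →ₗ[K] K[X] where
  toFun x := ∑ j, D.coordP (x * D.eps j) j
  map_add' x y := by simp only [add_mul, map_add, Pi.add_apply, Finset.sum_add_distrib]
  map_smul' c x := by simp only [smul_mul_assoc, map_smul, Pi.smul_apply, Finset.smul_sum,
    RingHom.id_apply]

/-- Unfolding of the trace to `K[u]`. -/
theorem traceP_apply (x : A) : D.traceP x = ∑ j, D.coordP (x * D.eps j) j := rfl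

/-- The trace is `K[u]`-linear. -/
theorem traceP_aeval_mul (p : K[X]) (x : A) :
    D.traceP (aeval D.uu p * x) = p * D.traceP x := by
  simp only [traceP_apply, mul_assoc, D.coordP_aeval_mul, Finset.mul_sum]

theorem traceP_top {x : A} {k : ℕ} (hx : x ∈ D.lev (D.projDeg * k)) :
    (D.traceP x).coeff k = (D.projDeg : K) * D.coeff (D.projDeg * k) x ∧
      ∀ i, k < i → (D.traceP x).coeff i = 0 := by
  have hmem : ∀ j, x * D.eps j ∈ D.lev (D.monDeg j k) := fun j =>
    D.mul_mem_lev hx (D.e_mem_lev le_rfl)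
  constructor
  · rw [traceP_apply, finsetSum_coeff, Finset.sum_congr rfl fun j _ => by
      rw [D.coeff_coordP (hmem j), monDeg, D.coeff_mul_top hx (D.e_mem_lev le_rfl),
        D.coeff_e (D.apery_notMem j), if_pos rfl, mul_one]]
    rw [Finset.sum_const, Finset.card_univ, Fintype.card_fin, nsmul_eq_mul]
  · intro i hi
    rw [traceP_apply, finsetSum_coeff]
    refine Finset.sum_eq_zero fun j _ => D.coordP_bounded (hmem j) j i ?_
    have := Nat.mul_lt_mul_of_pos_left hi D.projDeg_pos
    simp only [monDeg]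
    omega

/-- The opposite residue class. -/
def mirror (r : Fin D.projDeg) : Fin D.projDeg :=
  ⟨(D.projDeg - r) % D.projDeg, Nat.mod_lt _ D.projDeg_pos⟩

theorem add_mirror_mod (r : Fin D.projDeg) : ((r : ℕ) + (D.mirror r : ℕ)) % D.projDeg = 0 := by
  show ((r : ℕ) + (D.projDeg - r) % D.projDeg) % D.projDeg = 0
  rw [Nat.add_mod_mod, Nat.add_sub_cancel' r.2.le, Nat.mod_self]

/-- The opposite residue class is unique. -/
theorem eq_mirror {r s : Fin D.projDeg} (h : ((r : ℕ) + (s : ℕ)) % D.projDeg = 0) :
    s = D.mirror r := by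
  refine Fin.ext ?_
  have h2 := D.add_mirror_mod r
  have h3 : (s : ℕ) ≡ (D.mirror r : ℕ) [MOD D.projDeg] :=
    Nat.ModEq.add_left_cancel' (r : ℕ) (h.trans h2.symm)
  exact h3.eq_of_lt_of_lt s.2 (D.mirror r).2

/-- Taking the opposite residue class is an involution. -/
theorem mirror_mirror (r : Fin D.projDeg) : D.mirror (D.mirror r) = r :=
  (D.eq_mirror (by rw [add_comm]; exact D.add_mirror_mod r)).symm

theorem exists_traceP_eps_mul_ne_zero [CharZero K] {x : A} (hx : x ≠ 0) :
    ∃ (i : Fin D.projDeg) (k : ℕ), D.apery i + D.deg x = D.projDeg * k ∧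
      (D.traceP (D.eps i * x)).natDegree = k ∧ D.traceP (D.eps i * x) ≠ 0 := by
  let r : Fin D.projDeg := ⟨D.deg x % D.projDeg, Nat.mod_lt _ D.projDeg_pos⟩
  refine ⟨D.mirror r, (D.apery (D.mirror r) + D.deg x) / D.projDeg, ?_⟩
  have hdvd : D.projDeg ∣ D.apery (D.mirror r) + D.deg x := by
    rw [Nat.dvd_iff_mod_eq_zero, Nat.add_mod, D.apery_mod, add_comm]
    exact D.add_mirror_mod r
  set k := (D.apery (D.mirror r) + D.deg x) / D.projDeg
  have hk : D.apery (D.mirror r) + D.deg x = D.projDeg * k := (Nat.mul_div_cancel' hdvd).symm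
  refine ⟨hk, ?_⟩
  have hmem : D.eps (D.mirror r) * x ∈ D.lev (D.projDeg * k) :=
    hk ▸ D.mul_mem_lev (D.e_mem_lev le_rfl) (D.mem_lev_deg x)
  obtain ⟨h1, h2⟩ := D.traceP_top hmem
  rw [← hk, D.coeff_mul_top (D.e_mem_lev le_rfl) (D.mem_lev_deg x),
    D.coeff_e (D.apery_notMem _), if_pos rfl, one_mul] at h1
  have hne : (D.traceP (D.eps (D.mirror r) * x)).coeff k ≠ 0 := by
    rw [h1]; exact mul_ne_zero (Nat.cast_ne_zero.mpr D.projDeg_pos.ne') (D.coeff_deg_ne_zero hx)
  exact ⟨natDegree_eq_of_le_of_coeff_ne_zero (natDegree_le_iff_coeff_eq_zero.mpr h2) hne,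
    fun h => hne (by rw [h, Polynomial.coeff_zero])⟩

theorem eq_zero_of_traceP_eq_zero [CharZero K] {x : A}
    (h : ∀ i, D.traceP (D.eps i * x) = 0) : x = 0 := by
  by_contra hx
  obtain ⟨i, k, -, -, hi⟩ := D.exists_traceP_eps_mul_ne_zero hx
  exact hi (h i)

/-! ### The dual family -/

/-- The Gram matrix. -/
def gram : Matrix (Fin D.projDeg) (Fin D.projDeg) K[X] :=
  Matrix.of fun i j => D.traceP (D.eps i * D.eps j)

/-- The discriminant. -/
def discP : K[X] := D.gram.det

/-- The dual family `Δ • eps*`. -/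
def dualW (r : Fin D.projDeg) : A := D.polyComb fun s => D.gram.adjugate s r

theorem traceP_eps_mul_polyComb (i : Fin D.projDeg) (c : Fin D.projDeg → K[X]) :
    D.traceP (D.eps i * D.polyComb c) = D.gram.mulVec c i := by
  rw [polyComb_apply, Finset.mul_sum, map_sum]
  refine Finset.sum_congr rfl fun s _ => ?_
  rw [mul_left_comm, D.traceP_aeval_mul, mul_comm]
  rfl

/-- The family `dualW` is dual to `eps`, up to the discriminant. -/
theorem traceP_eps_mul_dualW (i r : Fin D.projDeg) :
    D.traceP (D.eps i * D.dualW r) = if i = r then D.discP else 0 := by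
  rw [dualW, D.traceP_eps_mul_polyComb]
  show (D.gram * D.gram.adjugate) i r = _
  rw [Matrix.mul_adjugate, Matrix.smul_apply, Matrix.one_apply]
  simp [discP]

/-- The discriminant is nonzero in characteristic zero. -/
theorem discP_ne_zero [CharZero K] : D.discP ≠ 0 := by
  intro h
  obtain ⟨v, hv, hGv⟩ := Matrix.exists_mulVec_eq_zero_iff.mpr h
  refine hv (D.polyComb_injective ?_)
  rw [map_zero]
  exact D.eq_zero_of_traceP_eq_zero fun i => by rw [D.traceP_eps_mul_polyComb, hGv]; rfl

/-- The members of the dual family are nonzero. -/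
theorem dualW_ne_zero [CharZero K] (r : Fin D.projDeg) : D.dualW r ≠ 0 := fun h => by
  have := D.traceP_eps_mul_dualW r r
  rw [h, mul_zero, map_zero, if_pos rfl] at this
  exact D.discP_ne_zero this.symm

/-- The pole order of a member of the dual family. -/
theorem deg_dualW [CharZero K] (r : Fin D.projDeg) :
    D.deg (D.dualW r) + D.apery r = D.projDeg * D.discP.natDegree := by
  obtain ⟨i, k, hk, hdeg, hne⟩ := D.exists_traceP_eps_mul_ne_zero (D.dualW_ne_zero r)
  rw [D.traceP_eps_mul_dualW] at hdeg hne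
  by_cases hir : i = r
  · subst hir
    rw [if_pos rfl] at hdeg
    rw [hdeg, add_comm, hk]
  · exact absurd (if_neg hir) hne

/-- The dual family spans exactly the functions whose traces are divisible by `Δ`. -/
theorem exists_eq_sum_dualW [CharZero K] {f : A}
    (hf : f ∈ Ideal.span (Set.range D.dualW)) :
    ∃ q : Fin D.projDeg → K[X], f = ∑ r, aeval D.uu (q r) * D.dualW r := by
  classical
  have hall : ∀ i, D.discP ∣ D.traceP (D.eps i * f) := by
    refine Submodule.span_induction (p := fun f _ => ∀ i, D.discP ∣ D.traceP (D.eps i * f))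
      ?_ (fun i => by simp) (fun x y _ _ hx hy i => by
        rw [mul_add, map_add]; exact dvd_add (hx i) (hy i)) ?_ hf
    · rintro _ ⟨r, rfl⟩ i
      rw [D.traceP_eps_mul_dualW]
      split_ifs <;> simp
    · intro g x _ hx i
      rw [smul_eq_mul, ← mul_assoc]
      conv_rhs => rw [← D.polyComb_coordP (D.eps i * g), polyComb_apply, Finset.sum_mul, map_sum]
      refine Finset.dvd_sum fun s _ => ?_
      rw [mul_assoc, D.traceP_aeval_mul]
      exact dvd_mul_of_dvd_right (hx s) _
  choose q hq using hall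
  refine ⟨q, sub_eq_zero.mp (D.eq_zero_of_traceP_eq_zero fun i => ?_)⟩
  rw [mul_sub, map_sub, Finset.mul_sum, map_sum, Finset.sum_eq_single i, hq i, mul_left_comm,
    D.traceP_aeval_mul, D.traceP_eps_mul_dualW, if_pos rfl, mul_comm, sub_self]
  · intro r _ hr
    rw [mul_left_comm, D.traceP_aeval_mul, D.traceP_eps_mul_dualW, if_neg (Ne.symm hr), mul_zero]
  · simp

end CurveBasis

end Fermat.Agent.MW
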